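import Fermat.Agent.S41.Kappa.PosPar

/-!
# S41, Kappa 9: the Atkin-Lehner automorphism of `Γ₀(Mℓ)`  (owner: see task S41-K9)
-/

set_option autoImplicit false

open CongruenceSubgroup Matrix Matrix.SpecialLinearGroup ModularGroup ModularForm
open scoped MatrixGroups

namespace Fermat.Agent.S41.Kappa

open Fermat.Agent.Lib.HeckeHom

theorem alEquiv_det_aux (N q : ℕ) (h : Nat.Coprime q N) :
    (!![(q : ℤ) * Int.gcdA q N ^ 2 - N * Int.gcdB q N, - Int.gcdB q N * (Int.gcdA q N + 1);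
      (N : ℤ) * q * (Int.gcdA q N + 1), - (N : ℤ) * Int.gcdB q N + q]).det = 1 := by
  have hb := fam_bezout N q h
  rw [Matrix.det_fin_two_of]
  linear_combination ((q : ℤ) * Int.gcdA q N + (N : ℤ) * Int.gcdB q N + 1) * hb

/-- `γ₀ = w ^ 2 / q` in `SL₂(ℤ)`. -/
def alEquivGammaSL (N q : ℕ) (h : Nat.Coprime q N) : SL(2, ℤ) :=
  ⟨!![(q : ℤ) * Int.gcdA q N ^ 2 - N * Int.gcdB q N, - Int.gcdB q N * (Int.gcdA q N + 1);
      (N : ℤ) * q * (Int.gcdA q N + 1), - (N : ℤ) * Int.gcdB q N + q], alEquiv_det_aux N q h⟩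

theorem alEquivGammaSL_mem (N q : ℕ) (h : Nat.Coprime q N) :
    alEquivGammaSL N q h ∈ Gamma0 (N * q) :=
  fam_mem_Gamma0.2 ⟨Int.gcdA q N + 1, by simp [alEquivGammaSL]⟩

/-- `γ₀ = w ^ 2 / q`. -/
def alEquivGamma (N q : ℕ) (h : Nat.Coprime q N) : Gamma0 (N * q) :=
  ⟨alEquivGammaSL N q h, alEquivGammaSL_mem N q h⟩

theorem alEquiv_wMat_sq {N q : ℕ} (hq : q ≠ 0) (h : Nat.Coprime q N) :
    ((wMat N q h * wMat N q h : GL (Fin 2) ℝ) : Matrix (Fin 2) (Fin 2) ℝ) =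
      (q : ℝ) • ((incl (N * q) (alEquivGamma N q h) : GL (Fin 2) ℝ) :
        Matrix (Fin 2) (Fin 2) ℝ) := by
  rw [wMat, Units.val_mul, Units.val_mul, val_heckeDiagMatrix hq]
  ext i j
  fin_cases i <;> fin_cases j <;>
    simp [Matrix.mul_apply, Fin.sum_univ_two, incl_entry, rho0, rho0SL, alEquivGamma,
      alEquivGammaSL] <;> ring

/-- `γ ↦ w γ w⁻¹` as an endomorphism of `Γ₀(Mℓ)`. -/
noncomputable def alEquivHom (M ℓ : ℕ) (hℓ : ℓ.Prime) (h : Nat.Coprime ℓ M) :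
    Gamma0 (M * ℓ) →* Gamma0 (M * ℓ) where
  toFun γ := (isCorr_al M ℓ hℓ h).coc γ ()
  map_one' := (isCorr_al M ℓ hℓ h).coc_one ()
  map_mul' γ δ := (isCorr_al M ℓ hℓ h).coc_mul γ δ ()

theorem alEquivHom_spec (M ℓ : ℕ) (hℓ : ℓ.Prime) (h : Nat.Coprime ℓ M) (γ : Gamma0 (M * ℓ)) :
    wMat M ℓ h * incl (M * ℓ) γ = incl (M * ℓ) (alEquivHom M ℓ hℓ h γ) * wMat M ℓ h :=
  (isCorr_al M ℓ hℓ h).spec γ ()

theorem alEquivHom_sq (M ℓ : ℕ) (hℓ : ℓ.Prime) (h : Nat.Coprime ℓ M) (γ : Gamma0 (M * ℓ)) :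
    alEquivHom M ℓ hℓ h (alEquivHom M ℓ hℓ h γ) =
      alEquivGamma M ℓ h * γ * (alEquivGamma M ℓ h)⁻¹ := by
  rw [eq_mul_inv_iff_mul_eq]
  apply incl_injective
  apply Units.ext
  have e : wMat M ℓ h * wMat M ℓ h * incl (M * ℓ) γ =
      incl (M * ℓ) (alEquivHom M ℓ hℓ h (alEquivHom M ℓ hℓ h γ)) * (wMat M ℓ h * wMat M ℓ h) := by
    rw [mul_assoc, alEquivHom_spec M ℓ hℓ h γ, ← mul_assoc, alEquivHom_spec M ℓ hℓ h, mul_assoc]
  have e' := congrArg Units.val e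
  rw [Units.val_mul, Units.val_mul _ (wMat M ℓ h * wMat M ℓ h), alEquiv_wMat_sq hℓ.ne_zero h,
    Matrix.smul_mul, Matrix.mul_smul] at e'
  have hℓ0 : (ℓ : ℝ) ≠ 0 := by exact_mod_cast hℓ.ne_zero
  have e'' := smul_right_injective (Matrix (Fin 2) (Fin 2) ℝ) hℓ0 e'
  rw [map_mul, map_mul, Units.val_mul, Units.val_mul]
  exact e''.symm

theorem alEquivHom_bijective (M ℓ : ℕ) (hℓ : ℓ.Prime) (h : Nat.Coprime ℓ M) :
    Function.Bijective (alEquivHom M ℓ hℓ h) := by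
  constructor
  · intro γ γ' e
    apply incl_injective
    apply mul_left_cancel (a := wMat M ℓ h)
    rw [alEquivHom_spec M ℓ hℓ h, alEquivHom_spec M ℓ hℓ h, e]
  · intro δ
    refine ⟨alEquivHom M ℓ hℓ h ((alEquivGamma M ℓ h)⁻¹ * δ * alEquivGamma M ℓ h), ?_⟩
    rw [alEquivHom_sq]
    group

theorem alEquiv_det_wMat_pos (M ℓ : ℕ) (h : Nat.Coprime ℓ M) :
    0 < ((wMat M ℓ h).det : ℝ) := by
  rw [wMat, map_mul, Units.val_mul]
  have h1 : ((incl M (rho0 M ℓ h)).det : ℝ) = 1 := by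
    rw [incl_apply, det_mapGL, Units.val_one]
  rw [h1, one_mul]
  exact det_heckeDiagMatrix_pos ℓ

theorem alEquiv_mapGL_neg (g : SL(2, ℤ)) :
    ((mapGL ℝ (-g) : GL (Fin 2) ℝ) : Matrix (Fin 2) (Fin 2) ℝ) =
      -((mapGL ℝ g : GL (Fin 2) ℝ) : Matrix (Fin 2) (Fin 2) ℝ) := by
  ext i j
  simp

/-- The automorphism `γ ↦ w γ w⁻¹` of `Γ₀(Mℓ)`, with its properties. -/
theorem exists_alEquiv (M ℓ : ℕ) (hℓ : ℓ.Prime) (h : Nat.Coprime ℓ M) :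
    ∃ c : Gamma0 (M * ℓ) ≃* Gamma0 (M * ℓ),
      (∀ γ, wMat M ℓ h * incl (M * ℓ) γ = incl (M * ℓ) (c γ) * wMat M ℓ h) ∧
      (∀ u, IsPosPar (c u : SL(2, ℤ)) ↔ IsPosPar (u : SL(2, ℤ))) ∧
      (∀ u v : Gamma0 (M * ℓ), (v : SL(2, ℤ)) = -(u : SL(2, ℤ)) →
        (c v : SL(2, ℤ)) = -(c u : SL(2, ℤ))) ∧
      ∀ (A : Type) [AddCommGroup A] (ψ : Additive (Gamma0 (M * ℓ)) →+ A),
        al M ℓ hℓ h ψ = ψ.comp (MonoidHom.toAdditive c.toMonoidHom) := by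
  have hspec := alEquivHom_spec M ℓ hℓ h
  have hdet := alEquiv_det_wMat_pos M ℓ h
  refine ⟨MulEquiv.ofBijective (alEquivHom M ℓ hℓ h) (alEquivHom_bijective M ℓ hℓ h),
    hspec, fun u => ⟨fun hu => ?_, fun hu => ?_⟩, fun u v huv => ?_, fun A _ ψ => ?_⟩
  · refine hu.of_conj (wMat M ℓ h)⁻¹ ?_ ?_
    · rw [map_inv, Units.val_inv_eq_inv_val]
      exact inv_pos.2 hdet
    · have := hspec u
      rw [incl_apply, incl_apply] at this
      show (wMat M ℓ h)⁻¹ * mapGL ℝ (alEquivHom M ℓ hℓ h u : SL(2, ℤ)) = _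
      rw [inv_mul_eq_iff_eq_mul, ← mul_assoc, this, mul_inv_cancel_right]
  · exact hu.of_conj (wMat M ℓ h) hdet (hspec u)
  · show (alEquivHom M ℓ hℓ h v : SL(2, ℤ)) = -(alEquivHom M ℓ hℓ h u : SL(2, ℤ))
    apply mapGL_injective (R := ℤ) (S := ℝ)
    apply mul_right_cancel (b := wMat M ℓ h)
    apply Units.ext
    have hu := congrArg Units.val (hspec u)
    have hv := congrArg Units.val (hspec v)
    simp only [incl_apply, Units.val_mul] at hu hv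
    rw [Units.val_mul, Units.val_mul, alEquiv_mapGL_neg, ← hv, huv, alEquiv_mapGL_neg,
      Matrix.neg_mul, ← hu, Matrix.mul_neg]
  · refine AddMonoidHom.ext fun γ => ?_
    obtain ⟨γ, rfl⟩ := Additive.ofMul.surjective γ
    exact al_apply M ℓ hℓ h ψ (hspec γ)

end Fermat.Agent.S41.Kappa
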