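import Fermat.Agent.S41.Kappa.Formula
import Fermat.Agent.S41.PD.Omega
import Fermat.Agent.S41.PD.Farey

/-!
# S41, Kappa 11: the Manin vector of a cusp potential satisfies the Manin relations; `omega3` in terms
of `omega`.
-/

set_option autoImplicit false

open CongruenceSubgroup Matrix Matrix.SpecialLinearGroup ModularGroup
open scoped MatrixGroups

namespace Fermat.Agent.S41.Kappa

open Fermat.Agent.S41.PD

/-- equivariance of the differences of a cusp potential. -/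
theorem bridgeManin_equiv {M : ℕ} {x : Additive (Gamma0 M) →+ ℤ} {u : OnePoint ℚ → ℤ}
    (hu : IsCuspPot M u x) (g : SL(2, ℤ)) (ξ : X M) (s t : OnePoint ℚ) :
    u (act (g • ξ).out⁻¹ (act g s)) - u (act (g • ξ).out⁻¹ (act g t)) =
      u (act ξ.out⁻¹ s) - u (act ξ.out⁻¹ t) := by
  have hγ : (g • ξ).out⁻¹ * g * ξ.out ∈ Gamma0 M := Fermat.Agent.S16.Lift.coc_mem g ξ
  have h1 : ∀ r : OnePoint ℚ, act (g • ξ).out⁻¹ (act g r) =
      act ((g • ξ).out⁻¹ * g * ξ.out) (act ξ.out⁻¹ r) := by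
    intro r
    rw [← Fermat.Agent.S41.PD.act_mul, ← Fermat.Agent.S41.PD.act_mul]
    congr 1
    group
  rw [h1, h1, IsCuspPot.sub_eq hu hγ]

theorem bridgeManin_act_inv_zero : act (S * T)⁻¹ cZero = cInf := by
  rw [← act_ST_inf, ← Fermat.Agent.S41.PD.act_mul, inv_mul_cancel, act_one]

theorem bridgeManin_act_inv_neg : act (S * T)⁻¹ cNeg = cZero := by
  rw [← act_ST_zero, ← Fermat.Agent.S41.PD.act_mul, inv_mul_cancel, act_one]

theorem bridgeManin_act_inv_inf : act (S * T)⁻¹ cInf = cNeg := by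
  rw [← act_ST_neg, ← Fermat.Agent.S41.PD.act_mul, inv_mul_cancel, act_one]

theorem bridgeManin_pS {M : ℕ} {x : Additive (Gamma0 M) →+ ℤ} {u : OnePoint ℚ → ℤ}
    (hu : IsCuspPot M u x) (ξ : X M) :
    manin M u (pS M ξ) = u (act ξ.out⁻¹ cZero) - u (act ξ.out⁻¹ cInf) := by
  have h := bridgeManin_equiv hu S ξ cZero cInf
  rw [act_S_zero, act_S_inf] at h
  exact h

theorem bridgeManin_pU {M : ℕ} {x : Additive (Gamma0 M) →+ ℤ} {u : OnePoint ℚ → ℤ}
    (hu : IsCuspPot M u x) (ξ : X M) :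
    manin M u (pU M ξ) = u (act ξ.out⁻¹ cZero) - u (act ξ.out⁻¹ cNeg) := by
  have h := bridgeManin_equiv hu (S * T)⁻¹ ξ cZero cNeg
  rw [bridgeManin_act_inv_zero, bridgeManin_act_inv_neg] at h
  exact h

theorem bridgeManin_pU_pU {M : ℕ} {x : Additive (Gamma0 M) →+ ℤ} {u : OnePoint ℚ → ℤ}
    (hu : IsCuspPot M u x) (ξ : X M) :
    manin M u (pU M (pU M ξ)) = u (act ξ.out⁻¹ cNeg) - u (act ξ.out⁻¹ cInf) := by
  rw [bridgeManin_pU hu (pU M ξ)]
  have h := bridgeManin_equiv hu (S * T)⁻¹ ξ cNeg cInf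
  rw [bridgeManin_act_inv_inf, bridgeManin_act_inv_neg] at h
  exact h

/-- the Manin vector of a cusp potential satisfies the Manin relations. -/
theorem bridgeManin_isManin {M : ℕ} {x : Additive (Gamma0 M) →+ ℤ} {u : OnePoint ℚ → ℤ}
    (hu : IsCuspPot M u x) : IsManin (pS M) (pU M) (manin M u) := by
  have h3 : ∀ ξ, manin M u ξ + manin M u (pU M ξ) + manin M u (pU M (pU M ξ)) = 0 := by
    intro ξ
    rw [bridgeManin_pU hu, bridgeManin_pU_pU hu, manin]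
    ring
  refine ⟨fun ξ => ?_, h3, fun ξ hξ => ?_⟩
  · rw [bridgeManin_pS hu, manin]
    ring
  · have h := h3 ξ
    rw [hξ, hξ] at h
    omega

theorem bridgeManin_pU_cube (M : ℕ) : pU M * pU M * pU M = 1 := by
  have h1 : ((S * T)⁻¹ * (S * T)⁻¹ * (S * T)⁻¹ : SL(2, ℤ)) = -1 := by
    have h2 : ((S * T)⁻¹ * (S * T)⁻¹ * (S * T)⁻¹ : SL(2, ℤ)) = ((S * T) ^ 3)⁻¹ := by
      rw [pow_succ, pow_two, _root_.mul_inv_rev ((S * T) * (S * T)), _root_.mul_inv_rev (S * T) (S * T),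
        mul_assoc]
    rw [h2, Fermat.Agent.Lib.PSL2Pres.ST_cube]
    decide
  refine Equiv.ext fun ξ => ?_
  show (S * T)⁻¹ • (S * T)⁻¹ • (S * T)⁻¹ • ξ = ξ
  rw [smul_smul, smul_smul, h1, neg_one_smul_X]

/-- `omega3` in terms of `omega`. -/
theorem bridgeManin_omega3_eq {M : ℕ} [NeZero M] {m₁ m₂ : X M → ℤ}
    (h₁ : IsManin (pS M) (pU M) m₁) (h₂ : IsManin (pS M) (pU M) m₂) :
    omega3 M m₁ m₂ = - (3 * omega (pU M) m₁ m₂) := by
  rw [three_mul_omega (pS M) (pU M) (bridgeManin_pU_cube M) m₁ m₂ h₁ h₂,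
    ← Equiv.sum_comp (MulAction.toPerm (S * T : SL(2, ℤ))), omega3, ← Finset.sum_neg_distrib]
  refine Finset.sum_congr rfl fun ξ _ => ?_
  have h : pU M (MulAction.toPerm (S * T : SL(2, ℤ)) ξ) = ξ := by
    show (S * T)⁻¹ • (S * T) • ξ = ξ
    rw [inv_smul_smul]
  rw [h]
  show _ = -(m₁ ((S * T) • ξ) * m₂ ξ - m₁ ξ * m₂ ((S * T) • ξ))
  ring

end Fermat.Agent.S41.Kappa
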