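import Fermat.Agent.S41.Kappa.Defs
import Fermat.Agent.S41.PD.Farey

/-!
# S41, Kappa: existence of cusp potentials  (task S41-K10, helper99)

* `cuspPot_exists_of_stab` : a homomorphism which kills all the stabilisers of a `G`-set has a
  potential on it;
* `cuspPot_trace_sq` : an element of `SL(2,ℤ)` fixing a cusp has trace `± 2`;
* `cuspPot_exists` : every parabolic homomorphism has a potential on the cusps.
-/

set_option autoImplicit false

open CongruenceSubgroup Matrix Matrix.SpecialLinearGroup ModularGroup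
open scoped MatrixGroups

namespace Fermat.Agent.S41.Kappa

open Fermat.Agent.S41.PD Fermat.Agent.Lib.HeckeHom

/-- a homomorphism which kills all the stabilisers has a potential. -/
theorem cuspPot_exists_of_stab {Γ G X A : Type*} [Group Γ] [Group G] [MulAction G X]
    [AddCommGroup A] (φ : Γ →* G) (ψ : Additive Γ →+ A)
    (h : ∀ (γ : Γ) (x : X), φ γ • x = x → ψ (Additive.ofMul γ) = 0) :
    ∃ F : X → A, IsPotential φ F ψ := by
  classical
  let s : Setoid X :=
    { r := fun a b => ∃ γ : Γ, φ γ • a = b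
      iseqv := ⟨fun a => ⟨1, by simp⟩,
        fun ⟨γ, hγ⟩ => ⟨γ⁻¹, by rw [← hγ, map_inv, inv_smul_smul]⟩,
        fun ⟨γ, hγ⟩ ⟨δ, hδ⟩ => ⟨δ * γ, by rw [map_mul, mul_smul, hγ, hδ]⟩⟩ }
  have hrel : ∀ x : X, ∃ γ : Γ, φ γ • (Quotient.out (Quotient.mk s x)) = x := fun x =>
    Quotient.exact (Quotient.out_eq (Quotient.mk s x))
  refine ⟨fun x => ψ (Additive.ofMul (hrel x).choose), ?_⟩
  intro γ x
  have e1 := (hrel x).choose_spec
  have e2 := (hrel (φ γ • x)).choose_spec
  have hq : Quotient.mk s (φ γ • x) = Quotient.mk s x :=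
    Quotient.sound ⟨γ⁻¹, by rw [map_inv, inv_smul_smul]⟩
  have hq' : Quotient.out (Quotient.mk s (φ γ • x)) = Quotient.out (Quotient.mk s x) :=
    congrArg Quotient.out hq
  show ψ (Additive.ofMul (hrel (φ γ • x)).choose) - ψ (Additive.ofMul (hrel x).choose) = _
  generalize (hrel (φ γ • x)).choose = a at e2 ⊢
  generalize (hrel x).choose = b at e1 ⊢
  rw [hq'] at e2
  have hfix : φ (a⁻¹ * γ * b) • Quotient.out (Quotient.mk s x) = Quotient.out (Quotient.mk s x) := by
    rw [map_mul, map_mul, mul_smul, mul_smul, e1, ← e2, map_inv, inv_smul_smul]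
  have h0 := h _ _ hfix
  rw [ofMul_mul, ofMul_mul, ofMul_inv, map_add, map_add, map_neg] at h0
  rw [sub_eq_iff_eq_add]
  have : ψ (Additive.ofMul a) = ψ (Additive.ofMul a) +
      (-ψ (Additive.ofMul a) + ψ (Additive.ofMul γ) + ψ (Additive.ofMul b)) := by
    rw [h0, add_zero]
  rw [this]
  abel

/-- an element of `SL(2,ℤ)` fixing a cusp has trace `± 2`. -/
theorem cuspPot_trace_sq {g : SL(2, ℤ)} {s : OnePoint ℚ} (hg : act g s = s) :
    ((g : Matrix (Fin 2) (Fin 2) ℤ)).trace ^ 2 = 4 := by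
  obtain ⟨h, rfl⟩ := exists_act_inf s
  have h1 : act (h⁻¹ * g * h) cInf = cInf := by
    rw [act_mul, act_mul, hg, ← act_mul, inv_mul_cancel, act_one]
  have htr : ((h⁻¹ * g * h : SL(2, ℤ)) : Matrix (Fin 2) (Fin 2) ℤ).trace =
      (g : Matrix (Fin 2) (Fin 2) ℤ).trace := by
    rw [Matrix.SpecialLinearGroup.coe_mul, Matrix.SpecialLinearGroup.coe_mul,
      Matrix.trace_mul_cycle, ← Matrix.SpecialLinearGroup.coe_mul, mul_inv_cancel,
      Matrix.SpecialLinearGroup.coe_one, one_mul]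
  obtain ⟨k, hk | hk⟩ := eq_of_act_inf h1
  · rw [← htr, hk, ModularGroup.coe_T_zpow, Matrix.trace_fin_two]
    simp
  · rw [← htr, hk, Matrix.SpecialLinearGroup.coe_neg, ModularGroup.coe_T_zpow,
      Matrix.trace_fin_two]
    simp

/-- every parabolic homomorphism has a cusp potential. -/
theorem cuspPot_exists {M : ℕ} {x : Additive (Gamma0 M) →+ ℤ} (hx : x ∈ Lam M) :
    ∃ u : OnePoint ℚ → ℤ, IsCuspPot M u x := by
  refine cuspPot_exists_of_stab (inclQ M) x fun γ s hs => ?_
  exact (ModularCurve.Period.mem_parabolicHoms_iff.mp hx) γ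
    (cuspPot_trace_sq (g := (γ : SL(2, ℤ))) (s := s) hs)

end Fermat.Agent.S41.Kappa
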