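import Fermat.Agent.S41.Kappa.Main
import Fermat.Agent.S41.PD.Omega
import Fermat.Agent.S41.Kappa.BridgeManin
import Fermat.Agent.S41.Kappa.CuspPot

/-!
# S41, Kappa: from `omega3_al` to the pairing `pd`  (owner: helper140)
-/

set_option autoImplicit false

open CongruenceSubgroup Matrix Matrix.SpecialLinearGroup ModularGroup
open scoped MatrixGroups

namespace Fermat.Agent.S41.Kappa

open Fermat.Agent.S41.PD Fermat.Agent.Lib.HeckeHom

/-- every parabolic homomorphism has a cusp potential. -/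
theorem exists_isCuspPot {M : ℕ} {x : Additive (Gamma0 M) →+ ℤ} (hx : x ∈ Lam M) :
    ∃ u : OnePoint ℚ → ℤ, IsCuspPot M u x :=
  cuspPot_exists hx

theorem isCuspPot_potOf {M : ℕ} {x : Additive (Gamma0 M) →+ ℤ} (hx : x ∈ Lam M) :
    IsCuspPot M (potOf M x) x := by
  have h := exists_isCuspPot hx
  unfold potOf
  rw [dif_pos h]
  exact h.choose_spec

/-- the Manin vector of a cusp potential satisfies the Manin relations. -/
theorem isManin_manin {M : ℕ} {x : Additive (Gamma0 M) →+ ℤ} {u : OnePoint ℚ → ℤ}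
    (hu : IsCuspPot M u x) : IsManin (pS M) (pU M) (manin M u) :=
  bridgeManin_isManin hu

theorem pU_mul_self_mul_self (M : ℕ) : pU M * pU M * pU M = 1 :=
  bridgeManin_pU_cube M

/-- `omega3` in terms of `omega`. -/
theorem omega3_eq {M : ℕ} [NeZero M] {m₁ m₂ : X M → ℤ} (h₁ : IsManin (pS M) (pU M) m₁)
    (h₂ : IsManin (pS M) (pU M) m₂) : omega3 M m₁ m₂ = - (3 * omega (pU M) m₁ m₂) :=
  bridgeManin_omega3_eq h₁ h₂

/-- **PD4**: the Atkin-Lehner operator is an isometry of the pairing. -/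
theorem pd_al (M ℓ : ℕ) [NeZero (M * ℓ)] (hℓ : ℓ.Prime) (h : Nat.Coprime ℓ M)
    {x y : Additive (Gamma0 (M * ℓ)) →+ ℤ} (hx : x ∈ Lam (M * ℓ)) (hy : y ∈ Lam (M * ℓ))
    (hx' : al M ℓ hℓ h x ∈ Lam (M * ℓ)) (hy' : al M ℓ hℓ h y ∈ Lam (M * ℓ)) :
    pd (M * ℓ) (al M ℓ hℓ h x) (al M ℓ hℓ h y) = pd (M * ℓ) x y := by
  have hu := isCuspPot_potOf hx
  have hv := isCuspPot_potOf hy
  have hu' := isCuspPot_potOf hx'
  have hv' := isCuspPot_potOf hy'
  have key := omega3_al M ℓ hℓ h hx hy hu hv hu' hv'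
  rw [omega3_eq (isManin_manin hu') (isManin_manin hv'),
    omega3_eq (isManin_manin hu) (isManin_manin hv)] at key
  unfold pd
  linarith

end Fermat.Agent.S41.Kappa
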