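import Fermat.Agent.S41.Kappa.PosPar

/-!
# S41, Kappa 8: a cup-primitive of two parabolic homomorphisms is a parabolic class function
(owner: see task S41-K8)
-/

set_option autoImplicit false

open CongruenceSubgroup Matrix Matrix.SpecialLinearGroup ModularGroup
open scoped MatrixGroups

namespace Fermat.Agent.S41.Kappa

open Fermat.Agent.Lib.HeckeHom

theorem IsTwisted.isParClassFn {M : ℕ} {x y : Additive (Gamma0 M) →+ ℤ} (hx : x ∈ Lam M)
    (hy : y ∈ Lam M) {κ : Gamma0 M → ℤ} (hκ : IsTwisted x y κ) :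
    IsParClassFn (Gamma0 M) κ := by
  have hX : ∀ u : Gamma0 M, IsPosPar (u : SL(2, ℤ)) → x (Additive.ofMul u) = 0 := fun u hu =>
    hx u (by rw [Matrix.trace_fin_two]; exact hu.1)
  have hY : ∀ u : Gamma0 M, IsPosPar (u : SL(2, ℤ)) → y (Additive.ofMul u) = 0 := fun u hu =>
    hy u (by rw [Matrix.trace_fin_two]; exact hu.1)
  have h1 : κ 1 = 0 := by
    have e := hκ 1 1
    rw [mul_one, ofMul_one, map_zero, zero_mul, add_zero] at e
    linarith
  refine ⟨fun u η hu => ?_, fun u k hu => ?_, fun u v hu hv => ?_⟩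
  · have e1 := hκ (η * u) η⁻¹
    have e2 := hκ η u
    have e3 := hκ η η⁻¹
    rw [mul_inv_cancel, h1] at e3
    rw [ofMul_mul, map_add, hX u hu] at e1
    rw [hY u hu] at e2
    rw [e1, e2]
    linarith
  · induction k with
    | zero => simp [h1]
    | succ k ih =>
      rw [pow_succ, hκ, ih, hY u hu]
      push_cast
      ring
  · obtain ⟨m, hm⟩ : ∃ m : Gamma0 M, (m : SL(2, ℤ)) = -1 :=
      ⟨⟨-1, by rw [Gamma0_mem]; simp⟩, rfl⟩
    have hv' : v = m * u := Subtype.ext (by rw [hv, Subgroup.coe_mul, hm, neg_mul, one_mul])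
    have hxm : x (Additive.ofMul m) = 0 := hx m (by rw [hm]; simp)
    have hmm : m * m = 1 := Subtype.ext (by rw [Subgroup.coe_mul, hm]; simp)
    have e := hκ m m
    rw [hmm, h1, hxm, zero_mul, add_zero] at e
    rw [hv', hκ, hY u hu]
    linarith

/-- composition with a homomorphism. -/
theorem IsTwisted.comp {Γ Γ' : Type*} [Group Γ] [Group Γ'] {R : Type*} [CommRing R]
    {x y : Additive Γ →+ R} {κ : Γ → R} (hκ : IsTwisted x y κ) (c : Γ' →* Γ) :
    IsTwisted (x.comp (MonoidHom.toAdditive c)) (y.comp (MonoidHom.toAdditive c))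
      (fun g => κ (c g)) := by
  intro g h
  simp only [map_mul, hκ (c g) (c h)]
  rfl

end Fermat.Agent.S41.Kappa
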