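import Fermat.Agent.S41.Kappa.Defs
import Fermat.Agent.S16.Lift.Data

/-!
# S41, Kappa 6: the normalised Shapiro cocycle of a cusp potential  (owner: see task S41-K6)

For a cusp potential `u` of `x : Hom(Γ₀(M), A)` put
`cocPot M u g ξ = u ((g ξ).out⁻¹ g ∞) - u ((g ξ).out⁻¹ ∞)`.
It is a cocycle on `X M = SL₂(ℤ)/Γ₀(M)`, vanishes at `T` and `-1`, its value at `S` is the Manin
vector of `u`, and its value at `(γ, base point)` is `x γ`.
-/

set_option autoImplicit false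

open CongruenceSubgroup Matrix Matrix.SpecialLinearGroup ModularGroup
open scoped MatrixGroups

namespace Fermat.Agent.S41.Kappa

open Fermat.Agent.S41.PD Fermat.Agent.S16.Lift

variable {A : Type*} [AddCommGroup A]

/-- the normalised Shapiro cocycle of a function on cusps. -/
noncomputable def cocPot (M : ℕ) (u : OnePoint ℚ → A) (g : SL(2, ℤ)) (ξ : X M) : A :=
  u (act (g • ξ).out⁻¹ (act g cInf)) - u (act (g • ξ).out⁻¹ cInf)

variable {M : ℕ} {u : OnePoint ℚ → A} {x : Additive (Gamma0 M) →+ A}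

theorem act_mul (g h : SL(2, ℤ)) (s : OnePoint ℚ) : act (g * h) s = act g (act h s) := by
  unfold act
  rw [map_mul, mul_smul]

theorem cocPot_act_T_cInf : act T cInf = cInf := by
  show Fermat.Agent.Lib.PSL2Pres.rho T (OnePoint.infty : OnePoint ℚ) = _
  rw [Fermat.Agent.Lib.PSL2Pres.rho_apply_infty]
  have h10 : (T : SL(2, ℤ)) 1 0 = 0 := by decide
  rw [h10]
  simp

theorem act_T_pow_cInf (n : ℕ) : act (T ^ n) cInf = cInf := by
  induction n with
  | zero =>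
    unfold act
    rw [pow_zero, map_one, one_smul]
  | succ n ih => rw [pow_succ, act_mul, cocPot_act_T_cInf, ih]

theorem act_neg_one (s : OnePoint ℚ) : act (-1) s = s := by
  show Fermat.Agent.Lib.PSL2Pres.rho (-1) s = s
  rw [Fermat.Agent.Lib.PSL2Pres.rho_neg_one]
  rfl

theorem act_S_cInf : act S cInf = cZero := by
  show Fermat.Agent.Lib.PSL2Pres.rho S (OnePoint.infty : OnePoint ℚ) = _
  rw [Fermat.Agent.Lib.PSL2Pres.rho_apply_infty]
  have h10 : (S : SL(2, ℤ)) 1 0 = 1 := by decide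
  have h00 : (S : SL(2, ℤ)) 0 0 = 0 := by decide
  rw [h10, h00]
  simp

theorem act_S_cZero : act S cZero = cInf := by
  show Fermat.Agent.Lib.PSL2Pres.rho S ((0 : ℚ) : OnePoint ℚ) = _
  rw [Fermat.Agent.Lib.PSL2Pres.rho_apply_coe]
  have h11 : (S : SL(2, ℤ)) 1 1 = 0 := by decide
  rw [h11]
  simp

theorem cocPot_neg_one_mem : (-1 : SL(2, ℤ)) ∈ Gamma0 M := by
  rw [Gamma0_mem]
  have h10 : (-1 : SL(2, ℤ)) 1 0 = 0 := by decide
  rw [h10]
  simp

theorem neg_one_smul_X (ξ : X M) : (-1 : SL(2, ℤ)) • ξ = ξ := by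
  induction ξ using QuotientGroup.induction_on with
  | H g =>
    show (((-1 : SL(2, ℤ)) * g : SL(2, ℤ)) : X M) = (g : X M)
    rw [QuotientGroup.eq]
    have h : ((-1 : SL(2, ℤ)) * g)⁻¹ * g = -1 := by
      have h1 : (-1 : SL(2, ℤ)) * g = g * (-1) := by
        rw [neg_mul, mul_neg, one_mul, mul_one]
      have h2 : (-1 : SL(2, ℤ))⁻¹ = -1 := by decide
      rw [h1, _root_.mul_inv_rev, h2, mul_assoc, inv_mul_cancel, mul_one]
    rw [h]
    exact cocPot_neg_one_mem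

/-- differences of a cusp potential are `Γ₀(M)`-invariant. -/
theorem IsCuspPot.sub_eq (hu : IsCuspPot M u x) {γ : SL(2, ℤ)} (hγ : γ ∈ Gamma0 M)
    (s t : OnePoint ℚ) : u (act γ s) - u (act γ t) = u s - u t := by
  have h1 : u (act γ s) - u s = x (Additive.ofMul ⟨γ, hγ⟩) := hu ⟨γ, hγ⟩ s
  have h2 : u (act γ t) - u t = x (Additive.ofMul ⟨γ, hγ⟩) := hu ⟨γ, hγ⟩ t
  have h3 : u (act γ s) - u s = u (act γ t) - u t := h1.trans h2.symm
  rw [sub_eq_sub_iff_add_eq_add] at h3 ⊢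
  rw [h3, add_comm]

/-- transport of a difference along `a = γ b`, `γ ∈ Γ₀(M)`. -/
theorem cocPot_transport (hu : IsCuspPot M u x) {a b : SL(2, ℤ)} (h : a * b⁻¹ ∈ Gamma0 M)
    (s t : OnePoint ℚ) : u (act a s) - u (act a t) = u (act b s) - u (act b t) := by
  have e : ∀ r, act a r = act (a * b⁻¹) (act b r) := fun r => by
    rw [← act_mul]
    congr 1
    group
  rw [e s, e t, IsCuspPot.sub_eq hu h]

theorem isCoc_cocPot (hu : IsCuspPot M u x) : IsCoc (cocPot M u) := by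
  intro g h ξ
  unfold cocPot
  rw [mul_smul, act_mul g h cInf]
  have key : u (act (g • h • ξ).out⁻¹ (act g (act h cInf))) - u (act (g • h • ξ).out⁻¹ (act g cInf))
      = u (act (h • ξ).out⁻¹ (act h cInf)) - u (act (h • ξ).out⁻¹ cInf) := by
    rw [← act_mul _ g (act h cInf), ← act_mul _ g cInf]
    refine cocPot_transport hu ?_ _ _
    rw [inv_inv]
    exact coc_mem g (h • ξ)
  rw [← key]
  abel

theorem cocPot_T_pow (n : ℕ) (ξ : X M) : cocPot M u (T ^ n) ξ = 0 := by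
  unfold cocPot
  rw [act_T_pow_cInf, sub_self]

theorem cocPot_neg_one (ξ : X M) : cocPot M u (-1) ξ = 0 := by
  unfold cocPot
  rw [act_neg_one, sub_self]

theorem cocPot_S (hu : IsCuspPot M u x) (ξ : X M) : cocPot M u S ξ = manin M u ξ := by
  unfold cocPot manin
  have h1 : act (S • ξ).out⁻¹ cInf = act ((S • ξ).out⁻¹ * S) cZero := by
    rw [act_mul, act_S_cZero]
  rw [h1, ← act_mul]
  refine cocPot_transport hu ?_ _ _
  rw [inv_inv]
  exact coc_mem S ξ

/-- value at the base point. -/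
theorem cocPot_base (hu : IsCuspPot M u x) (γ : Gamma0 M) :
    cocPot M u (γ : SL(2, ℤ)) ((1 : SL(2, ℤ)) : X M) = x (Additive.ofMul γ) := by
  set q₀ : X M := ((1 : SL(2, ℤ)) : X M) with hq₀
  have hout : q₀.out ∈ Gamma0 M := by
    have : ((q₀.out : SL(2, ℤ)) : X M) = ((1 : SL(2, ℤ)) : X M) := QuotientGroup.out_eq' q₀
    rw [QuotientGroup.eq] at this
    simpa using this
  have hfix : (γ : SL(2, ℤ)) • q₀ = q₀ := by
    change (((γ : SL(2, ℤ)) * 1 : SL(2, ℤ)) : X M) = ((1 : SL(2, ℤ)) : X M)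
    rw [QuotientGroup.eq]
    simp
  unfold cocPot
  rw [hfix, IsCuspPot.sub_eq hu ((Gamma0 M).inv_mem hout)]
  exact hu γ cInf

theorem cocPot_pow_twelve {σ : SL(2, ℤ)} (hσ : σ = S ∨ σ = S * T) : σ ^ 12 = 1 := by
  rcases hσ with rfl | rfl
  · decide
  · decide

/-- primitives along `S` and `S T`, for torsion free coefficients. -/
theorem exists_primitive_cocPot [NeZero M] [IsAddTorsionFree A] (hu : IsCuspPot M u x)
    (σ : SL(2, ℤ)) (hσ : σ = S ∨ σ = S * T) :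
    ∃ a : X M → A, ∀ ξ, a (σ • ξ) - a ξ = cocPot M u σ ξ := by
  have hpow : ∀ (i : ℕ) (ξ : X M), ((MulAction.toPerm σ : Equiv.Perm (X M)) ^ i) ξ = σ ^ i • ξ := by
    intro i ξ
    have : (MulAction.toPerm σ : Equiv.Perm (X M)) ^ i = MulAction.toPerm (σ ^ i) :=
      (map_pow (MulAction.toPermHom SL(2, ℤ) (X M)) σ i).symm
    rw [this]
    rfl
  refine exists_primitive_of_orbit_sums (MulAction.toPerm σ) (cocPot M u σ) fun ξ k hk => ?_
  rw [hpow] at hk
  simp only [hpow]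
  rw [← (isCoc_cocPot hu).pow σ k ξ]
  unfold cocPot
  rw [hk]
  set γ : SL(2, ℤ) := ξ.out⁻¹ * σ ^ k * ξ.out with hγdef
  have hγ : γ ∈ Gamma0 M := by
    have := coc_mem (Γ := Gamma0 M) (σ ^ k) ξ
    rwa [hk] at this
  have e1 : act ξ.out⁻¹ (act (σ ^ k) cInf) = act γ (act ξ.out⁻¹ cInf) := by
    rw [← act_mul, ← act_mul]
    congr 1
    rw [hγdef]
    group
  rw [e1]
  have h1 : u (act γ (act ξ.out⁻¹ cInf)) - u (act ξ.out⁻¹ cInf) = x (Additive.ofMul ⟨γ, hγ⟩) :=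
    hu ⟨γ, hγ⟩ _
  rw [h1]
  have h12 : (⟨γ, hγ⟩ : Gamma0 M) ^ 12 = 1 := by
    apply Subtype.ext
    show γ ^ 12 = 1
    have : γ = ξ.out⁻¹ * σ ^ k * (ξ.out⁻¹)⁻¹ := by rw [inv_inv]
    rw [this, conj_pow, ← pow_mul, mul_comm, pow_mul, cocPot_pow_twelve hσ, one_pow]
    group
  have h2 : 12 • x (Additive.ofMul (⟨γ, hγ⟩ : Gamma0 M)) = 12 • (0 : A) := by
    rw [← map_nsmul, ← ofMul_pow, h12, ofMul_one, map_zero, smul_zero]
  exact nsmul_right_injective (by norm_num) h2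

end Fermat.Agent.S41.Kappa
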