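import Fermat.Agent.S41.PD.Defs
import Fermat.Agent.Lib.PSL2Pres

/-!
# S41, block Kappa (the Atkin-Lehner isometry of the pairing via cup-primitives): definitions
(owner: helper140)

For `x y : Hom(Γ, ℤ)` a *cup-primitive* is a function `κ : Γ → ℤ` with
`κ (g h) = κ g + κ h + x g * y h`.  The pairing of `x, y ∈ Lam M` is (up to the factor `-2`) the sum
of `κ` over the positive generators of the stabilisers of the cusps of `Γ₀(M)`; this description is
invariant under every automorphism of `Γ₀(M)` induced by a matrix of positive determinant.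
-/

set_option autoImplicit false

open CongruenceSubgroup Matrix Matrix.SpecialLinearGroup ModularGroup
open scoped MatrixGroups

namespace Fermat.Agent.S41.Kappa

open Fermat.Agent.S41.PD

/-- `κ` is a primitive of the cup product of `x` and `y`. -/
def IsTwisted {Γ : Type*} [Group Γ] {R : Type*} [CommRing R] (x y : Additive Γ →+ R)
    (κ : Γ → R) : Prop :=
  ∀ g h : Γ, κ (g * h) = κ g + κ h + x (Additive.ofMul g) * y (Additive.ofMul h)

/-- extension by zero of a function on a subgroup. -/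
noncomputable def extZ {G : Type*} [Group G] (Γ : Subgroup G) {R : Type*} [Zero R] (κ : Γ → R)
    (g : G) : R :=
  open Classical in if h : g ∈ Γ then κ ⟨g, h⟩ else 0

/-- `∑_{[g] ∈ SL₂(ℤ)/Γ₀(M)} κ (g⁻¹ T^n g)` (meaningful for `M ∣ n`). -/
noncomputable def cuspSum (M : ℕ) [NeZero M] (n : ℕ) (κ : Gamma0 M → ℤ) : ℤ :=
  ∑ ξ : X M, extZ (Gamma0 M) κ (ξ.out⁻¹ * T ^ n * ξ.out)

/-- positive parabolic elements: conjugates of `± T^k`, `k > 0` (see `isPosPar_iff`). -/
def IsPosPar (g : SL(2, ℤ)) : Prop :=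
  (g 0 0 + g 1 1) ^ 2 = 4 ∧ 0 < (g 0 0 + g 1 1) * (g 0 1 - g 1 0)

/-- functions on `Γ` which behave like homomorphisms and class functions on the positive parabolic
elements. -/
structure IsParClassFn (Γ : Subgroup SL(2, ℤ)) (f : Γ → ℤ) : Prop where
  conj : ∀ u η : Γ, IsPosPar (u : SL(2, ℤ)) → f (η * u * η⁻¹) = f u
  pow : ∀ (u : Γ) (k : ℕ), IsPosPar (u : SL(2, ℤ)) → f (u ^ k) = k * f u
  neg : ∀ u v : Γ, IsPosPar (u : SL(2, ℤ)) → (v : SL(2, ℤ)) = -(u : SL(2, ℤ)) → f v = f u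

/-- `u` is, up to sign, `Γ`-conjugate to the `k`-th power of `v`. -/
def IsConjPow (Γ : Subgroup SL(2, ℤ)) (u v : Γ) (k : ℕ) : Prop :=
  ∃ η : Γ, (u : SL(2, ℤ)) = (η * v ^ k * η⁻¹ : Γ) ∨ (u : SL(2, ℤ)) = -((η * v ^ k * η⁻¹ : Γ) : SL(2, ℤ))

/-- a system of representatives of the primitive positive parabolic classes of `Γ`. -/
structure IsParSystem (Γ : Subgroup SL(2, ℤ)) {I : Type*} (π : I → Γ) : Prop where
  pos : ∀ i, IsPosPar (π i : SL(2, ℤ))
  exists_conj : ∀ u : Γ, IsPosPar (u : SL(2, ℤ)) → ∃ (i : I) (k : ℕ), 0 < k ∧ IsConjPow Γ u (π i) k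
  unique : ∀ (i j : I) (k : ℕ), 0 < k → IsConjPow Γ (π i) (π j) k → i = j

end Fermat.Agent.S41.Kappa
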