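import Fermat.Agent.S41.Kappa.PosPar

/-!
# S41, Kappa 5: the system of parabolic classes given by the `T`-orbits on `SL₂(ℤ)/Γ₀(M)`
(owner: see task S41-K5)
-/

set_option autoImplicit false

open CongruenceSubgroup Matrix Matrix.SpecialLinearGroup ModularGroup
open scoped MatrixGroups

namespace Fermat.Agent.S41.Kappa

open Fermat.Agent.S41.PD

/-- `g⁻¹ T^n g ∈ Γ₀(M)` for `M ∣ n`. -/
theorem conj_T_pow_mem (M : ℕ) {n : ℕ} (hn : M ∣ n) (g : SL(2, ℤ)) :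
    g⁻¹ * T ^ n * g ∈ Gamma0 M := by
  rw [Gamma0_mem]
  have hT : ((T ^ n : SL(2, ℤ)) : Matrix (Fin 2) (Fin 2) ℤ) = !![1, (n : ℤ); 0, 1] := by
    rw [← zpow_natCast, coe_T_zpow]
  have h : (g⁻¹ * T ^ n * g) 1 0 = -(n : ℤ) * (g 1 0) ^ 2 := by
    simp only [coe_mul, coe_inv, hT, adjugate_fin_two, Matrix.mul_apply, Fin.sum_univ_two]
    simp
    ring
  rw [h]
  obtain ⟨k, rfl⟩ := hn
  simp

/-! ### Cosets -/

theorem orb_neg_mem {M : ℕ} {u : SL(2, ℤ)} (h : u ∈ Gamma0 M) : -u ∈ Gamma0 M := by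
  rw [Gamma0_mem] at h ⊢
  simpa using h

theorem orb_mk_neg (M : ℕ) (g : SL(2, ℤ)) :
    (QuotientGroup.mk (-g) : X M) = QuotientGroup.mk g := by
  rw [eq_comm, QuotientGroup.eq, mul_neg, inv_mul_cancel]
  exact orb_neg_mem (one_mem _)

theorem orb_smul_mk_iff (M : ℕ) (a g : SL(2, ℤ)) :
    a • (QuotientGroup.mk g : X M) = QuotientGroup.mk g ↔ g⁻¹ * a * g ∈ Gamma0 M := by
  show (QuotientGroup.mk (a * g) : X M) = QuotientGroup.mk g ↔ _
  rw [eq_comm, QuotientGroup.eq, mul_assoc]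

theorem orb_exists_eta (M : ℕ) (ξ : X M) (j : ℤ) (g : SL(2, ℤ))
    (h : (QuotientGroup.mk g : X M) = T ^ j • ξ) : ∃ η : Gamma0 M, g = T ^ j * ξ.out * η := by
  have h1 : (QuotientGroup.mk (T ^ j * ξ.out) : X M) = QuotientGroup.mk g := by
    rw [h]
    conv_rhs => rw [← QuotientGroup.out_eq' ξ]
    rfl
  rw [QuotientGroup.eq] at h1
  exact ⟨⟨_, h1⟩, by group⟩

theorem orb_conj_eq {g x η : SL(2, ℤ)} {j : ℤ} (h : g = T ^ j * x * η) (k : ℕ) :
    g⁻¹ * T ^ k * g = η⁻¹ * (x⁻¹ * T ^ k * x) * η := by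
  subst h
  group

theorem orb_conj_pow (x b : SL(2, ℤ)) (m : ℕ) : (x⁻¹ * b * x) ^ m = x⁻¹ * b ^ m * x := by
  have := conj_pow (a := x⁻¹) (b := b) (i := m)
  rwa [inv_inv] at this

/-! ### Periods -/

/-- the width of the cusp. -/
noncomputable def orbPer (M : ℕ) (ξ : X M) : ℕ := MulAction.period (T : SL(2, ℤ)) ξ

theorem orb_pow_smul_iff (M : ℕ) (ξ : X M) (n : ℕ) : T ^ n • ξ = ξ ↔ orbPer M ξ ∣ n :=
  MulAction.pow_smul_eq_iff_period_dvd

theorem orb_pow_smul_of_dvd (M : ℕ) {n : ℕ} (hn : M ∣ n) (ξ : X M) : T ^ n • ξ = ξ := by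
  obtain ⟨g, rfl⟩ := QuotientGroup.mk_surjective ξ
  exact (orb_smul_mk_iff M _ g).2 (conj_T_pow_mem M hn g)

theorem orbPer_pos (M : ℕ) [NeZero M] (ξ : X M) : 0 < orbPer M ξ :=
  MulAction.period_pos_of_fixed (NeZero.pos M) (orb_pow_smul_of_dvd M dvd_rfl ξ)

theorem orbPer_smul (M : ℕ) (j : ℤ) (ξ : X M) : orbPer M (T ^ j • ξ) = orbPer M ξ := by
  have key : ∀ n : ℕ, T ^ n • (T ^ j • ξ) = T ^ j • ξ ↔ T ^ n • ξ = ξ := by
    intro n
    rw [smul_smul, (((Commute.refl (T : SL(2, ℤ))).pow_left n).zpow_right j).eq, mul_smul,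
      smul_left_cancel_iff]
  apply Nat.dvd_antisymm
  · rw [← orb_pow_smul_iff, key, orb_pow_smul_iff]
  · rw [← orb_pow_smul_iff, ← key, orb_pow_smul_iff]

/-- the positive generator of the stabiliser of the cusp. -/
noncomputable def orbPar (M : ℕ) (ξ : X M) : Gamma0 M :=
  ⟨ξ.out⁻¹ * T ^ orbPer M ξ * ξ.out, by
    rw [← orb_smul_mk_iff, QuotientGroup.out_eq', orb_pow_smul_iff]⟩

theorem coe_orbPar (M : ℕ) (ξ : X M) :
    (orbPar M ξ : SL(2, ℤ)) = ξ.out⁻¹ * T ^ orbPer M ξ * ξ.out := rfl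

theorem isPosPar_orbPar (M : ℕ) [NeZero M] (ξ : X M) : IsPosPar (orbPar M ξ : SL(2, ℤ)) := by
  have := (isPosPar_T_pow (orbPer_pos M ξ)).conj ξ.out⁻¹
  rwa [inv_inv] at this

/-! ### Orbits -/

/-- the set of `T`-orbits (= cusps of `Γ₀(M)`). -/
abbrev orbI (M : ℕ) : Type :=
  Quotient (MulAction.orbitRel (Subgroup.zpowers (T : SL(2, ℤ))) (X M))

theorem orb_mem_orbit_iff (M : ℕ) (ξ ξ' : X M) :
    ξ ∈ MulAction.orbit (Subgroup.zpowers (T : SL(2, ℤ))) ξ' ↔ ∃ j : ℤ, T ^ j • ξ' = ξ := by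
  constructor
  · rintro ⟨⟨z, j, rfl⟩, h⟩
    exact ⟨j, h⟩
  · rintro ⟨j, h⟩
    exact ⟨⟨T ^ j, j, rfl⟩, h⟩

theorem orb_mk_eq_iff (M : ℕ) (ξ : X M) (O : orbI M) :
    (Quotient.mk _ ξ : orbI M) = O ↔ ∃ j : ℤ, T ^ j • O.out = ξ := by
  rw [← orb_mem_orbit_iff, ← MulAction.orbitRel_apply]
  conv_lhs => rw [← Quotient.out_eq O]
  exact Quotient.eq

theorem orb_card_fiber (M : ℕ) [NeZero M] [DecidableEq (orbI M)] (O : orbI M) :
    (Finset.univ.filter (fun ξ : X M => (Quotient.mk _ ξ : orbI M) = O)).card =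
      orbPer M O.out := by
  classical
  have h1 : orbPer M O.out =
      Fintype.card (MulAction.orbit (Subgroup.zpowers (T : SL(2, ℤ))) O.out) :=
    MulAction.minimalPeriod_eq_card (T : SL(2, ℤ)) O.out
  rw [h1]
  symm
  apply Fintype.card_of_subtype
  intro ξ
  rw [Finset.mem_filter, orb_mk_eq_iff, orb_mem_orbit_iff]
  simp

/-! ### The values of a parabolic class function -/

theorem orbPar_smul (M : ℕ) (j : ℤ) (ξ : X M) :
    ∃ η : Gamma0 M, orbPar M (T ^ j • ξ) = η * orbPar M ξ * η⁻¹ := by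
  obtain ⟨η, hη⟩ := orb_exists_eta M ξ j (T ^ j • ξ).out (QuotientGroup.out_eq' _)
  refine ⟨η⁻¹, Subtype.ext ?_⟩
  rw [coe_orbPar, orbPer_smul, orb_conj_eq hη]
  simp [coe_orbPar]

theorem orb_val_smul (M : ℕ) [NeZero M] {f : Gamma0 M → ℤ} (hf : IsParClassFn (Gamma0 M) f)
    (j : ℤ) (ξ : X M) : f (orbPar M (T ^ j • ξ)) = f (orbPar M ξ) := by
  obtain ⟨η, hη⟩ := orbPar_smul M j ξ
  rw [hη, hf.conj _ _ (isPosPar_orbPar M ξ)]

theorem orb_extZ (M : ℕ) [NeZero M] {f : Gamma0 M → ℤ} (hf : IsParClassFn (Gamma0 M) f)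
    {n : ℕ} (hn : M ∣ n) (ξ : X M) :
    extZ (Gamma0 M) f (ξ.out⁻¹ * T ^ n * ξ.out) = ((n / orbPer M ξ : ℕ) : ℤ) * f (orbPar M ξ) := by
  have hd : orbPer M ξ ∣ n := (orb_pow_smul_iff M ξ n).1 (orb_pow_smul_of_dvd M hn ξ)
  have hmem : ξ.out⁻¹ * T ^ n * ξ.out ∈ Gamma0 M := conj_T_pow_mem M hn _
  have e : (⟨_, hmem⟩ : Gamma0 M) = orbPar M ξ ^ (n / orbPer M ξ) := by
    apply Subtype.ext
    rw [SubmonoidClass.coe_pow, coe_orbPar, orb_conj_pow, ← pow_mul, Nat.mul_div_cancel' hd]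
  rw [extZ, dif_pos hmem, e, hf.pow _ _ (isPosPar_orbPar M ξ)]

theorem orb_cuspSum (M : ℕ) [NeZero M] [Fintype (orbI M)] {f : Gamma0 M → ℤ}
    (hf : IsParClassFn (Gamma0 M) f) {n : ℕ} (hn : M ∣ n) :
    cuspSum M n f = n * ∑ O : orbI M, f (orbPar M O.out) := by
  classical
  rw [cuspSum, Finset.mul_sum,
    ← Finset.sum_fiberwise Finset.univ (fun ξ : X M => (Quotient.mk _ ξ : orbI M))]
  refine Finset.sum_congr rfl fun O _ => ?_
  have hd : orbPer M O.out ∣ n := (orb_pow_smul_iff M _ n).1 (orb_pow_smul_of_dvd M hn _)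
  have hc : ∀ ξ ∈ Finset.univ.filter (fun ξ : X M => (Quotient.mk _ ξ : orbI M) = O),
      extZ (Gamma0 M) f (ξ.out⁻¹ * T ^ n * ξ.out) =
        ((n / orbPer M O.out : ℕ) : ℤ) * f (orbPar M O.out) := by
    intro ξ hξ
    rw [Finset.mem_filter, orb_mk_eq_iff] at hξ
    obtain ⟨j, rfl⟩ := hξ.2
    rw [orb_extZ M hf hn, orbPer_smul, orb_val_smul M hf]
  rw [Finset.sum_congr rfl hc, Finset.sum_const, orb_card_fiber, nsmul_eq_mul, ← mul_assoc,
    ← Nat.cast_mul, Nat.mul_div_cancel' hd]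

/-! ### The system of parabolic classes -/

theorem orb_exists_conj (M : ℕ) [NeZero M] (u : Gamma0 M) (hu : IsPosPar (u : SL(2, ℤ))) :
    ∃ (O : orbI M) (k : ℕ), 0 < k ∧ IsConjPow (Gamma0 M) u (orbPar M O.out) k := by
  obtain ⟨g, k, hk, hg⟩ := hu.exists_conj_T
  have hmem : g⁻¹ * T ^ k * g ∈ Gamma0 M := by
    rcases hg with h | h
    · rw [← h]
      exact u.2
    · have := orb_neg_mem u.2
      rwa [h, neg_neg] at this
  obtain ⟨j, hj⟩ := (orb_mk_eq_iff M (QuotientGroup.mk g : X M) (Quotient.mk _ _)).1 rfl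
  set O : orbI M := Quotient.mk _ (QuotientGroup.mk g : X M) with hO
  obtain ⟨η, hη⟩ := orb_exists_eta M O.out j g hj.symm
  have hfix : T ^ k • (QuotientGroup.mk g : X M) = QuotientGroup.mk g :=
    (orb_smul_mk_iff M _ g).2 hmem
  have hd : orbPer M O.out ∣ k := by
    rw [← orbPer_smul M j, hj, ← orb_pow_smul_iff]
    exact hfix
  obtain ⟨m, rfl⟩ := hd
  have hm : 0 < m := Nat.pos_of_ne_zero (by rintro rfl; simp at hk)
  have key : g⁻¹ * T ^ (orbPer M O.out * m) * g =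
      ((η⁻¹ * orbPar M O.out ^ m * η⁻¹⁻¹ : Gamma0 M) : SL(2, ℤ)) := by
    rw [orb_conj_eq hη, pow_mul, ← orb_conj_pow]
    simp [coe_orbPar]
  refine ⟨O, m, hm, η⁻¹, ?_⟩
  rw [← key]
  exact hg

theorem orb_unique (M : ℕ) [NeZero M] (O O' : orbI M) (k : ℕ) (hk : 0 < k)
    (h : IsConjPow (Gamma0 M) (orbPar M O.out) (orbPar M O'.out) k) : O = O' := by
  obtain ⟨η, hη⟩ := h
  have hc : ((η * orbPar M O'.out ^ k * η⁻¹ : Gamma0 M) : SL(2, ℤ)) =
      (η : SL(2, ℤ)) * (O'.out.out⁻¹ * T ^ (orbPer M O'.out * k) * O'.out.out) *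
        (η : SL(2, ℤ))⁻¹ := by
    simp [coe_orbPar, orb_conj_pow, pow_mul]
  rw [hc, coe_orbPar] at hη
  have h2 : (O.out.out * η * O'.out.out⁻¹) * T ^ (orbPer M O'.out * k) =
        T ^ orbPer M O.out * (O.out.out * η * O'.out.out⁻¹) ∨
      (O.out.out * η * O'.out.out⁻¹) * T ^ (orbPer M O'.out * k) =
        -(T ^ orbPer M O.out * (O.out.out * η * O'.out.out⁻¹)) := by
    generalize O.out.out = a at hη ⊢
    generalize O'.out.out = b at hη ⊢
    generalize orbPer M O.out = e at hη ⊢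
    generalize orbPer M O'.out * k = e' at hη ⊢
    generalize (η : SL(2, ℤ)) = y at hη ⊢
    rcases hη with h | h
    · left
      have h3 : T ^ e = a * (y * (b⁻¹ * T ^ e' * b) * y⁻¹) * a⁻¹ := by
        rw [← h]
        group
      rw [h3]
      group
    · right
      have h3 : T ^ e = -(a * (y * (b⁻¹ * T ^ e' * b) * y⁻¹) * a⁻¹) := by
        rw [← neg_mul, ← mul_neg, ← h]
        group
      rw [h3, neg_mul, neg_neg]
      group
  obtain ⟨-, l, hl⟩ := eq_T_zpow_of_conj (Nat.mul_pos (orbPer_pos M _) hk) (orbPer_pos M _) h2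
  have h3 : (QuotientGroup.mk O.out.out : X M) = T ^ l • (QuotientGroup.mk O'.out.out : X M) := by
    have h4 : (QuotientGroup.mk O.out.out : X M) = QuotientGroup.mk (O.out.out * η) := by
      rw [QuotientGroup.eq]
      simp
    rw [h4]
    rcases hl with h | h
    · have h5 : O.out.out * η = T ^ l * O'.out.out := by
        rw [← h]
        group
      rw [h5]
      rfl
    · have h5 : O.out.out * η = -(T ^ l * O'.out.out) := by
        rw [← neg_mul, ← h]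
        group
      rw [h5, orb_mk_neg]
      rfl
  rw [QuotientGroup.out_eq', QuotientGroup.out_eq'] at h3
  rw [← Quotient.out_eq O]
  exact (orb_mk_eq_iff M _ O').2 ⟨l, h3.symm⟩

/-- There is a system of primitive positive parabolic classes of `Γ₀(M)` which computes
`cuspSum`. -/
theorem exists_parSystem (M : ℕ) [NeZero M] :
    ∃ (I : Type) (_ : Fintype I) (π : I → Gamma0 M), IsParSystem (Gamma0 M) π ∧
      ∀ f : Gamma0 M → ℤ, IsParClassFn (Gamma0 M) f → ∀ n : ℕ, 0 < n → M ∣ n →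
        cuspSum M n f = n * ∑ i, f (π i) := by
  classical
  refine ⟨orbI M, Fintype.ofFinite _, fun O => orbPar M O.out, ⟨?_, ?_, ?_⟩, ?_⟩
  · intro O
    exact isPosPar_orbPar M _
  · exact orb_exists_conj M
  · exact orb_unique M
  · intro f hf n _ hn
    exact @orb_cuspSum M _ (Fintype.ofFinite _) f hf n hn

end Fermat.Agent.S41.Kappa
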