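import Fermat.Agent.S41.Kappa.Heis

/-!
# S41, Kappa 2: sums of a cup-primitive over a finite `SL₂(ℤ)`-set  (owner: see task S41-K2)
-/

set_option autoImplicit false

open Matrix.SpecialLinearGroup ModularGroup
open scoped MatrixGroups

namespace Fermat.Agent.S41.Kappa

open Fermat.Agent.S16.Lift

section General

variable {G : Type*} [Group G] {X : Type*} [MulAction G X] {R : Type*} [CommRing R]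
  {D₁ D₂ K : G → X → R}

theorem IsCupPrim.one (hK : IsCupPrim D₁ D₂ K) (h₂ : IsCoc D₂) (ξ : X) : K 1 ξ = 0 := by
  have h := hK 1 1 ξ
  rw [mul_one, one_smul, h₂.one, mul_zero, add_zero] at h
  exact left_eq_add.mp h

/-- conjugation formula: the value of `K` at `g⁻¹ t g` at the point `ξ`, when both cocycles vanish
at `(t, g ξ)` and `t` fixes `g ξ`. -/
theorem IsCupPrim.conj (hK : IsCupPrim D₁ D₂ K) (h₁ : IsCoc D₁) (h₂ : IsCoc D₂) (g t : G) (ξ : X)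
    (hfix : t • g • ξ = g • ξ) (ht₁ : D₁ t (g • ξ) = 0) (ht₂ : D₂ t (g • ξ) = 0) :
    K (g⁻¹ * t * g) ξ = K t (g • ξ) := by
  have e1 := hK (g⁻¹ * t) g ξ
  have e2 := hK g⁻¹ t (g • ξ)
  have e3 := h₁ g⁻¹ t (g • ξ)
  have e4 := hK g⁻¹ g ξ
  rw [inv_mul_cancel, hK.one h₂] at e4
  rw [hfix, ht₂, mul_zero, add_zero] at e2
  rw [hfix, ht₁, add_zero] at e3
  rw [e1, e2, e3]
  linear_combination -e4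

/-- if `D₂ t = 0` then `∑ K (t ^ n) = n ∑ K t`. -/
theorem IsCupPrim.sum_pow [Fintype X] (hK : IsCupPrim D₁ D₂ K) (h₂ : IsCoc D₂) (t : G)
    (ht₂ : ∀ ξ, D₂ t ξ = 0) (n : ℕ) : ∑ ξ, K (t ^ n) ξ = n * ∑ ξ, K t ξ := by
  induction n with
  | zero => simp [hK.one h₂]
  | succ n ih =>
    have e : ∀ ξ, K (t ^ (n + 1)) ξ = K (t ^ n) (t • ξ) + K t ξ := by
      intro ξ
      rw [pow_succ, hK (t ^ n) t ξ, ht₂, mul_zero, add_zero]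
    have e2 : ∑ ξ, K (t ^ n) (t • ξ) = ∑ ξ, K (t ^ n) ξ :=
      Equiv.sum_comp (MulAction.toPerm t) (fun ξ => K (t ^ n) ξ)
    rw [Finset.sum_congr rfl (fun ξ _ => e ξ), Finset.sum_add_distrib, e2, ih]
    push_cast
    ring

/-- if `D₂ t = 0` then `∑ K t = ∑ K (s t) - ∑ K s`. -/
theorem IsCupPrim.sum_mul [Fintype X] (hK : IsCupPrim D₁ D₂ K) (s t : G)
    (ht₂ : ∀ ξ, D₂ t ξ = 0) : ∑ ξ, K t ξ = ∑ ξ, K (s * t) ξ - ∑ ξ, K s ξ := by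
  have e : ∀ ξ, K (s * t) ξ = K s (t • ξ) + K t ξ := by
    intro ξ
    rw [hK s t ξ, ht₂, mul_zero, add_zero]
  have e2 : ∑ ξ, K s (t • ξ) = ∑ ξ, K s ξ :=
    Equiv.sum_comp (MulAction.toPerm t) (fun ξ => K s ξ)
  rw [Finset.sum_congr rfl (fun ξ _ => e ξ), Finset.sum_add_distrib, e2]
  ring

end General

section Aux

/-- The combinatorial identity behind `six_mul_sum_sub_sum`. -/
theorem sumK_six_aux {X : Type*} [Fintype X] {R : Type*} [CommRing R] (s u : Equiv.Perm X)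
    (m₁ m₂ n₁ n₂ a₂ b₂ : X → R) (hu3 : ∀ ξ, u (u (u ξ)) = ξ)
    (hm₁ : ∀ ξ, m₁ (s ξ) = -m₁ ξ)
    (hn₁ : ∀ ξ, n₁ ξ = -m₁ (u ξ)) (hn₂ : ∀ ξ, n₂ ξ = -m₂ (u ξ))
    (h3₁ : ∀ ξ, n₁ ξ + n₁ (u ξ) + n₁ (u (u ξ)) = 0)
    (h3₂ : ∀ ξ, n₂ ξ + n₂ (u ξ) + n₂ (u (u ξ)) = 0)
    (ha : ∀ ξ, a₂ (s ξ) - a₂ ξ = m₂ ξ) (hb : ∀ ξ, b₂ (u ξ) - b₂ ξ = n₂ ξ) :
    6 * (∑ ξ, -(n₁ ξ * b₂ ξ) - ∑ ξ, -(m₁ ξ * a₂ ξ)) =
      ∑ ξ, (m₁ ξ * m₂ (u ξ) - m₁ (u ξ) * m₂ ξ) := by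
  -- (a)
  have hA : 2 * ∑ ξ, m₁ ξ * a₂ ξ = -∑ ξ, m₁ ξ * m₂ ξ := by
    have e1 : ∑ ξ, m₁ (s ξ) * a₂ (s ξ) = ∑ ξ, m₁ ξ * a₂ ξ :=
      Equiv.sum_comp s (fun ξ => m₁ ξ * a₂ ξ)
    have e2 : ∑ ξ, m₁ (s ξ) * a₂ (s ξ) = ∑ ξ, (-(m₁ ξ * a₂ ξ) - m₁ ξ * m₂ ξ) := by
      refine Finset.sum_congr rfl fun ξ _ => ?_
      rw [hm₁]
      linear_combination (-m₁ ξ) * ha ξ
    rw [Finset.sum_sub_distrib, Finset.sum_neg_distrib] at e2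
    linear_combination e2 - e1
  -- (b)
  have hB : 3 * ∑ ξ, n₁ ξ * b₂ ξ = ∑ ξ, m₁ (u ξ) * m₂ ξ - ∑ ξ, m₁ ξ * m₂ ξ := by
    have e1 : ∑ ξ, n₁ (u ξ) * b₂ (u ξ) = ∑ ξ, n₁ ξ * b₂ ξ :=
      Equiv.sum_comp u (fun ξ => n₁ ξ * b₂ ξ)
    have e2 : ∑ ξ, n₁ (u (u ξ)) * b₂ (u (u ξ)) = ∑ ξ, n₁ (u ξ) * b₂ (u ξ) :=
      Equiv.sum_comp u (fun ξ => n₁ (u ξ) * b₂ (u ξ))
    have e3 : ∑ ξ, m₁ (u (u ξ)) * m₂ (u ξ) = ∑ ξ, m₁ (u ξ) * m₂ ξ :=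
      Equiv.sum_comp u (fun ξ => m₁ (u ξ) * m₂ ξ)
    have e4 : ∑ ξ, (n₁ ξ * b₂ ξ + n₁ (u ξ) * b₂ (u ξ) + n₁ (u (u ξ)) * b₂ (u (u ξ)))
        = ∑ ξ, (m₁ (u (u ξ)) * m₂ (u ξ) - m₁ ξ * m₂ ξ) := by
      refine Finset.sum_congr rfl fun ξ _ => ?_
      have k1 : n₁ (u ξ) * n₂ ξ = m₁ (u (u ξ)) * m₂ (u ξ) := by
        rw [hn₁, hn₂]; ring
      have k2 : n₁ (u (u ξ)) * n₂ (u (u ξ)) = m₁ ξ * m₂ ξ := by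
        rw [hn₁, hn₂, hu3]; ring
      linear_combination k1 - k2 + b₂ ξ * h3₁ ξ + n₁ (u (u ξ)) * h3₂ ξ
        + (n₁ (u ξ) + n₁ (u (u ξ))) * hb ξ + n₁ (u (u ξ)) * hb (u ξ)
    rw [Finset.sum_add_distrib, Finset.sum_add_distrib, Finset.sum_sub_distrib] at e4
    linear_combination e4 - 2 * e1 - e2 + e3
  -- (c)
  have hC : ∑ ξ, m₁ ξ * m₂ ξ = -∑ ξ, m₁ ξ * m₂ (u ξ) - ∑ ξ, m₁ (u ξ) * m₂ ξ := by
    have e1 : ∑ ξ, m₁ (u ξ) * m₂ (u (u (u ξ))) = ∑ ξ, m₁ ξ * m₂ (u (u ξ)) :=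
      Equiv.sum_comp u (fun ξ => m₁ ξ * m₂ (u (u ξ)))
    have e2 : ∑ ξ, m₁ (u ξ) * m₂ (u (u (u ξ))) = ∑ ξ, m₁ (u ξ) * m₂ ξ :=
      Finset.sum_congr rfl fun ξ _ => by rw [hu3]
    have e3 : ∑ ξ, m₁ ξ * m₂ ξ = ∑ ξ, (-(m₁ ξ * m₂ (u ξ)) - m₁ ξ * m₂ (u (u ξ))) := by
      refine Finset.sum_congr rfl fun ξ _ => ?_
      have k := h3₂ ξ
      rw [hn₂, hn₂, hn₂, hu3] at k
      linear_combination (-m₁ ξ) * k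
    rw [Finset.sum_sub_distrib, Finset.sum_neg_distrib] at e3
    linear_combination e3 + e1 - e2
  rw [Finset.sum_neg_distrib, Finset.sum_neg_distrib, Finset.sum_sub_distrib]
  linear_combination (-2) * hB + 3 * hA - hC

end Aux

section SL2

variable {X : Type*} [MulAction SL(2, ℤ) X] {R : Type*} [CommRing R]
  {D₁ D₂ : SL(2, ℤ) → X → R}

/-- `D S (S ξ) + D S ξ = 0`. -/
theorem sumK_coc_S {D : SL(2, ℤ) → X → R} (h : IsCoc D) (hn : ∀ ξ, D (-1) ξ = 0) (ξ : X) :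
    D S (S • ξ) + D S ξ = 0 := by
  have e := h S S ξ
  rw [← pow_two, Fermat.Agent.Lib.PSL2Pres.S_sq, hn] at e
  exact e.symm

/-- `D U (U U ξ) + D U (U ξ) + D U ξ = 0`, `U = S T`. -/
theorem sumK_coc_U {D : SL(2, ℤ) → X → R} (h : IsCoc D) (hn : ∀ ξ, D (-1) ξ = 0) (ξ : X) :
    D (S * T) ((S * T) • (S * T) • ξ) + D (S * T) ((S * T) • ξ) + D (S * T) ξ = 0 := by
  have e := h (S * T) ((S * T) * (S * T)) ξ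
  rw [h (S * T) (S * T) ξ, mul_smul] at e
  have e3 : (S * T : SL(2, ℤ)) * ((S * T) * (S * T)) = -1 := by
    rw [← Fermat.Agent.Lib.PSL2Pres.ST_cube, pow_succ', pow_two]
  rw [e3, hn] at e
  linear_combination -e

/-- the natural choice of `kS`. -/
theorem relS_of_primitive (h₁ : IsCoc D₁) (hneg : ∀ ξ : X, (-1 : SL(2, ℤ)) • ξ = ξ)
    (h₁n : ∀ ξ, D₁ (-1) ξ = 0) (a₂ : X → R) (ha : ∀ ξ, a₂ (S • ξ) - a₂ ξ = D₂ S ξ) (ξ : X) :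
    -(D₁ S (S • ξ) * a₂ (S • ξ)) + -(D₁ S ξ * a₂ ξ) + D₁ S (S • ξ) * D₂ S ξ = 0 := by
  linear_combination (-a₂ ξ) * sumK_coc_S h₁ h₁n ξ - D₁ S (S • ξ) * ha ξ

/-- the natural choice of `kU`. -/
theorem relU_of_primitive (h₁ : IsCoc D₁) (hneg : ∀ ξ : X, (-1 : SL(2, ℤ)) • ξ = ξ)
    (h₁n : ∀ ξ, D₁ (-1) ξ = 0) (b₂ : X → R)
    (hb : ∀ ξ, b₂ ((S * T) • ξ) - b₂ ξ = D₂ (S * T) ξ) (ξ : X) :
    -(D₁ (S * T) ((S * T) • (S * T) • ξ) * b₂ ((S * T) • (S * T) • ξ))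
      + -(D₁ (S * T) ((S * T) • ξ) * b₂ ((S * T) • ξ)) + -(D₁ (S * T) ξ * b₂ ξ)
      + D₁ (S * T) ((S * T) • ξ) * D₂ (S * T) ξ
      + D₁ (S * T) ((S * T) • (S * T) • ξ) * (D₂ (S * T) ((S * T) • ξ) + D₂ (S * T) ξ) = 0 := by
  linear_combination (-b₂ ξ) * sumK_coc_U h₁ h₁n ξ
    - (D₁ (S * T) ((S * T) • ξ) + D₁ (S * T) ((S * T) • (S * T) • ξ)) * hb ξ
    - D₁ (S * T) ((S * T) • (S * T) • ξ) * hb ((S * T) • ξ)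

/-- `D U ξ = - D S (U ξ)` if `D T = 0`. -/
theorem sumK_coc_U_eq {D : SL(2, ℤ) → X → R} (h : IsCoc D) (hn : ∀ ξ, D (-1) ξ = 0)
    (hT : ∀ ξ, D T ξ = 0) (ξ : X) : D (S * T) ξ = -D S ((S * T) • ξ) := by
  rw [h S T ξ, hT, add_zero, mul_smul]
  linear_combination sumK_coc_S h hn (T • ξ)

/-- the explicit value: with `mᵢ = Dᵢ S`,
`6 (∑ kU - ∑ kS) = ∑ (m₁ ξ * m₂ (U ξ) - m₁ (U ξ) * m₂ ξ)`, `U = S T`. -/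
theorem six_mul_sum_sub_sum [Fintype X] (h₁ : IsCoc D₁) (h₂ : IsCoc D₂)
    (hneg : ∀ ξ : X, (-1 : SL(2, ℤ)) • ξ = ξ)
    (h₁n : ∀ ξ, D₁ (-1) ξ = 0) (h₂n : ∀ ξ, D₂ (-1) ξ = 0)
    (h₁T : ∀ ξ, D₁ T ξ = 0) (h₂T : ∀ ξ, D₂ T ξ = 0) (a₂ b₂ : X → R)
    (ha : ∀ ξ, a₂ (S • ξ) - a₂ ξ = D₂ S ξ) (hb : ∀ ξ, b₂ ((S * T) • ξ) - b₂ ξ = D₂ (S * T) ξ) :
    6 * (∑ ξ, -(D₁ (S * T) ξ * b₂ ξ) - ∑ ξ, -(D₁ S ξ * a₂ ξ)) =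
      ∑ ξ, (D₁ S ξ * D₂ S ((S * T) • ξ) - D₁ S ((S * T) • ξ) * D₂ S ξ) := by
  refine sumK_six_aux (MulAction.toPerm (S : SL(2, ℤ))) (MulAction.toPerm (S * T : SL(2, ℤ)))
    (D₁ S) (D₂ S) (D₁ (S * T)) (D₂ (S * T)) a₂ b₂ ?_ ?_ ?_ ?_ ?_ ?_ ha hb
  · intro ξ
    show (S * T : SL(2, ℤ)) • (S * T : SL(2, ℤ)) • (S * T : SL(2, ℤ)) • ξ = ξ
    rw [← mul_smul, ← mul_smul]
    have e3 : (S * T : SL(2, ℤ)) * (S * T) * (S * T) = -1 := by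
      rw [← Fermat.Agent.Lib.PSL2Pres.ST_cube, pow_succ, pow_two]
    rw [e3, hneg]
  · intro ξ
    show D₁ S (S • ξ) = -D₁ S ξ
    linear_combination sumK_coc_S h₁ h₁n ξ
  · exact sumK_coc_U_eq h₁ h₁n h₁T
  · exact sumK_coc_U_eq h₂ h₂n h₂T
  · intro ξ
    show D₁ (S * T) ξ + D₁ (S * T) ((S * T) • ξ) + D₁ (S * T) ((S * T) • (S * T) • ξ) = 0
    linear_combination sumK_coc_U h₁ h₁n ξ
  · intro ξ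
    show D₂ (S * T) ξ + D₂ (S * T) ((S * T) • ξ) + D₂ (S * T) ((S * T) • (S * T) • ξ) = 0
    linear_combination sumK_coc_U h₂ h₂n ξ

end SL2

end Fermat.Agent.S41.Kappa
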