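import Fermat.Agent.S41.Kappa.CocPot
import Fermat.Agent.S41.Kappa.SumK
import Fermat.Agent.S41.Kappa.Orbits

/-!
# S41, Kappa 7: the pairing as a sum of a cup-primitive over the cusps  (owner: see task S41-K7)
-/

set_option autoImplicit false

open CongruenceSubgroup Matrix Matrix.SpecialLinearGroup ModularGroup
open scoped MatrixGroups

namespace Fermat.Agent.S41.Kappa

open Fermat.Agent.S41.PD Fermat.Agent.S16.Lift

variable {M : ℕ} [NeZero M] {x y : Additive (Gamma0 M) →+ ℤ} {u v : OnePoint ℚ → ℤ}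

/-- the alternating sum over all of `X M` (three times the sum over the `U`-orbits). -/
noncomputable def omega3 (M : ℕ) [NeZero M] (m₁ m₂ : X M → ℤ) : ℤ :=
  ∑ ξ : X M, (m₁ ξ * m₂ ((S * T) • ξ) - m₁ ((S * T) • ξ) * m₂ ξ)

/-! ### helpers -/

omit [NeZero M] in
theorem formula_out_smul_base (ξ : X M) : ξ.out • (((1 : SL(2, ℤ)) : X M)) = ξ := by
  show ((ξ.out * 1 : SL(2, ℤ)) : X M) = ξ
  rw [mul_one]
  exact QuotientGroup.out_eq' ξ

omit [NeZero M] in
theorem formula_smul_base (γ : Gamma0 M) :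
    (γ : SL(2, ℤ)) • (((1 : SL(2, ℤ)) : X M)) = ((1 : SL(2, ℤ)) : X M) := by
  show (((γ : SL(2, ℤ)) * 1 : SL(2, ℤ)) : X M) = ((1 : SL(2, ℤ)) : X M)
  rw [QuotientGroup.eq]
  simp

omit [NeZero M] in
theorem formula_T_pow_smul {n : ℕ} (hn : M ∣ n) (ξ : X M) : (T ^ n : SL(2, ℤ)) • ξ = ξ := by
  conv_lhs => rw [← QuotientGroup.out_eq' ξ]
  conv_rhs => rw [← QuotientGroup.out_eq' ξ]
  show ((T ^ n * ξ.out : SL(2, ℤ)) : X M) = (ξ.out : X M)
  symm
  rw [QuotientGroup.eq, ← mul_assoc]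
  exact conj_T_pow_mem M hn ξ.out

theorem formula_extZ_of_mem {G : Type*} [Group G] {Γ : Subgroup G} {R : Type*} [Zero R]
    (κ : Γ → R) {g : G} (h : g ∈ Γ) : extZ Γ κ g = κ ⟨g, h⟩ := by
  simp [extZ, h]

theorem formula_cuspSum_add (n : ℕ) (κ κ' : Gamma0 M → ℤ) :
    cuspSum M n (fun γ => κ γ + κ' γ) = cuspSum M n κ + cuspSum M n κ' := by
  unfold cuspSum
  rw [← Finset.sum_add_distrib]
  apply Finset.sum_congr rfl
  intro ξ _
  by_cases h : ξ.out⁻¹ * T ^ n * ξ.out ∈ Gamma0 M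
  · rw [formula_extZ_of_mem _ h, formula_extZ_of_mem _ h, formula_extZ_of_mem _ h]
  · simp [extZ, h]

/-- the sum of a cocycle over a finite set is a homomorphism. -/
theorem formula_sum_mul {G : Type*} [Group G] {Y : Type*} [MulAction G Y] [Fintype Y]
    {D : G → Y → ℤ} (hD : IsCoc D) (g h : G) :
    ∑ ξ, D (g * h) ξ = ∑ ξ, D g ξ + ∑ ξ, D h ξ := by
  simp only [hD g h, Finset.sum_add_distrib]
  congr 1
  exact Equiv.sum_comp (MulAction.toPerm h) (fun ξ => D g ξ)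

theorem formula_sum_pow {G : Type*} [Group G] {Y : Type*} [MulAction G Y] [Fintype Y]
    {D : G → Y → ℤ} (hD : IsCoc D) (g : G) (n : ℕ) :
    ∑ ξ, D (g ^ n) ξ = n * ∑ ξ, D g ξ := by
  induction n with
  | zero => simp [hD.one]
  | succ k ih => rw [pow_succ, formula_sum_mul hD, ih]; push_cast; ring

theorem formula_sum_eq_zero_of_pow {G : Type*} [Group G] {Y : Type*} [MulAction G Y] [Fintype Y]
    {D : G → Y → ℤ} (hD : IsCoc D) (g : G) (n : ℕ) (hn : n ≠ 0) (hg : g ^ n = 1) :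
    ∑ ξ, D g ξ = 0 := by
  have h := formula_sum_pow hD g n
  rw [hg] at h
  simp only [hD.one, Finset.sum_const_zero] at h
  rcases mul_eq_zero.1 h.symm with h0 | h0
  · exact absurd (by exact_mod_cast h0) hn
  · exact h0

theorem formula_sum_T {Y : Type*} [MulAction SL(2, ℤ) Y] [Fintype Y]
    {D : SL(2, ℤ) → Y → ℤ} (hD : IsCoc D) : ∑ ξ, D T ξ = 0 := by
  have hS : ∑ ξ, D S ξ = 0 := formula_sum_eq_zero_of_pow hD S 4 (by norm_num) (by decide)
  have hU : ∑ ξ, D (S * T) ξ = 0 :=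
    formula_sum_eq_zero_of_pow hD (S * T) 6 (by norm_num) (by decide)
  rw [formula_sum_mul hD, hS, zero_add] at hU
  exact hU

/-- existence of one cup-primitive, with the formula. -/
theorem exists_kappa (hu : IsCuspPot M u x) (hv : IsCuspPot M v y) :
    ∃ κ : Gamma0 M → ℤ, IsTwisted x y κ ∧ ∀ n : ℕ, M ∣ n →
      6 * cuspSum M n κ = n * omega3 M (manin M u) (manin M v) := by
  have h₁ : IsCoc (cocPot M u) := isCoc_cocPot hu
  have h₂ : IsCoc (cocPot M v) := isCoc_cocPot hv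
  obtain ⟨a₂, ha⟩ := exists_primitive_cocPot hv S (Or.inl rfl)
  obtain ⟨b₂, hb⟩ := exists_primitive_cocPot hv (S * T) (Or.inr rfl)
  have hT₁ : ∀ ξ : X M, cocPot M u T ξ = 0 := fun ξ => by
    have := cocPot_T_pow (u := u) 1 ξ
    rwa [pow_one] at this
  have hT₂ : ∀ ξ : X M, cocPot M v T ξ = 0 := fun ξ => by
    have := cocPot_T_pow (u := v) 1 ξ
    rwa [pow_one] at this
  obtain ⟨K, hK, hKS, hKU⟩ := exists_isCupPrim (cocPot M u) (cocPot M v) h₁ h₂
    neg_one_smul_X cocPot_neg_one cocPot_neg_one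
    (fun ξ => -(cocPot M u S ξ * a₂ ξ)) (fun ξ => -(cocPot M u (S * T) ξ * b₂ ξ))
    (fun ξ => relS_of_primitive h₁ neg_one_smul_X cocPot_neg_one a₂ ha ξ)
    (fun ξ => relU_of_primitive h₁ neg_one_smul_X cocPot_neg_one b₂ hb ξ)
  refine ⟨fun γ => K (γ : SL(2, ℤ)) ((1 : SL(2, ℤ)) : X M), ?_, ?_⟩
  · intro g h
    show K ((g : SL(2, ℤ)) * (h : SL(2, ℤ))) _ = _
    rw [hK, formula_smul_base, cocPot_base hu, cocPot_base hv]
  · intro n hn
    have hsum : cuspSum M n (fun γ => K (γ : SL(2, ℤ)) ((1 : SL(2, ℤ)) : X M)) =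
        ∑ ξ : X M, K (T ^ n) ξ := by
      unfold cuspSum
      apply Finset.sum_congr rfl
      intro ξ _
      rw [formula_extZ_of_mem _ (conj_T_pow_mem M hn ξ.out)]
      show K (ξ.out⁻¹ * T ^ n * ξ.out) ((1 : SL(2, ℤ)) : X M) = _
      rw [hK.conj h₁ h₂ ξ.out (T ^ n) _
        (by rw [formula_out_smul_base]; exact formula_T_pow_smul hn ξ)
        (cocPot_T_pow n _) (cocPot_T_pow n _), formula_out_smul_base]
    rw [hsum, hK.sum_pow h₂ T hT₂ n, hK.sum_mul S T hT₂]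
    simp only [hKS, hKU, cocPot_S hu]
    have h6 := six_mul_sum_sub_sum h₁ h₂ neg_one_smul_X cocPot_neg_one cocPot_neg_one hT₁ hT₂
      a₂ b₂ ha hb
    simp only [cocPot_S hu, cocPot_S hv] at h6
    unfold omega3
    rw [← h6]
    ring

/-- `cuspSum` of a homomorphism vanishes. -/
theorem cuspSum_hom (χ : Additive (Gamma0 M) →+ ℤ) {n : ℕ} (hn : M ∣ n) :
    cuspSum M n (fun γ => χ (Additive.ofMul γ)) = 0 := by
  have h : cuspSum M n (fun γ => χ (Additive.ofMul γ)) =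
      ∑ ξ : X M, coc (Gamma0 M) χ (T ^ n) ξ := by
    unfold cuspSum
    apply Finset.sum_congr rfl
    intro ξ _
    rw [coc_of_fixed χ _ ξ (formula_T_pow_smul hn ξ)]
    rfl
  rw [h, formula_sum_pow (isCoc_coc χ), formula_sum_T (isCoc_coc χ), mul_zero]

/-- two cup-primitives differ by a homomorphism. -/
theorem IsTwisted.exists_hom_sub {κ κ' : Gamma0 M → ℤ} (h : IsTwisted x y κ)
    (h' : IsTwisted x y κ') :
    ∃ χ : Additive (Gamma0 M) →+ ℤ, ∀ γ, κ γ = κ' γ + χ (Additive.ofMul γ) := by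
  refine ⟨AddMonoidHom.mk' (fun g => κ (Additive.toMul g) - κ' (Additive.toMul g)) ?_, ?_⟩
  · intro a b
    show κ (Additive.toMul a * Additive.toMul b) - κ' (Additive.toMul a * Additive.toMul b) = _
    rw [h, h']
    ring
  · intro γ
    show κ γ = κ' γ + (κ γ - κ' γ)
    ring

/-- **The formula**, for every cup-primitive. -/
theorem six_mul_cuspSum (hu : IsCuspPot M u x) (hv : IsCuspPot M v y) {κ : Gamma0 M → ℤ}
    (hκ : IsTwisted x y κ) {n : ℕ} (hn : M ∣ n) :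
    6 * cuspSum M n κ = n * omega3 M (manin M u) (manin M v) := by
  obtain ⟨κ₀, hκ₀, hform⟩ := exists_kappa hu hv
  obtain ⟨χ, hχ⟩ := hκ.exists_hom_sub hκ₀
  have h : κ = fun γ => κ₀ γ + χ (Additive.ofMul γ) := funext hχ
  rw [h, formula_cuspSum_add, cuspSum_hom χ hn, add_zero, hform n hn]

end Fermat.Agent.S41.Kappa
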