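import Fermat.Agent.Lib.PSL2Pres
import Fermat.Agent.S16.Lift.Cocycle

/-!
# S41, Kappa 1: existence of a primitive of the cup product of two cocycles on an `SL₂(ℤ)`-set
(owner: see task S41-K1)

Abstract: `X` an `SL₂(ℤ)`-set on which `-1` acts trivially, `D₁ D₂ : SL₂(ℤ) → X → R` cocycles
(`D (g h) ξ = D g (h ξ) + D h ξ`) vanishing at `-1`.  Given `kS kU : X → R` satisfying the relations
forced by `S² = -1`, `(ST)³ = -1`, there is `K` with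
`K (g h) ξ = K g (h ξ) + K h ξ + D₁ g (h ξ) * D₂ h ξ`, `K S = kS`, `K (S T) = kU`.
-/

set_option autoImplicit false

open Matrix.SpecialLinearGroup ModularGroup
open scoped MatrixGroups

namespace Fermat.Agent.S41.Kappa

open Fermat.Agent.S16.Lift

/-- `K` is a primitive of the cup product `D₁ ∪ D₂`. -/
def IsCupPrim {G : Type*} [Group G] {X : Type*} [MulAction G X] {R : Type*} [CommRing R]
    (D₁ D₂ K : G → X → R) : Prop :=
  ∀ (g h : G) (ξ : X), K (g * h) ξ = K g (h • ξ) + K h ξ + D₁ g (h • ξ) * D₂ h ξ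

namespace Heis

section

variable {G : Type*} [Group G] {X : Type*} [MulAction G X] {R : Type*} [CommRing R]
  (D₁ D₂ : G → X → R)

/-- the "Heisenberg" transformation of `X × R × R` attached to `(g, k)` -/
def P (g : G) (k : X → R) (y : X × R × R) : X × R × R :=
  (g • y.1, y.2.1 + D₂ g y.1, y.2.2 + k y.1 + D₁ g y.1 * y.2.1)

/-- the composition law on the last parameter -/
def cup (g h : G) (kg kh : X → R) (ξ : X) : R :=
  kg (h • ξ) + kh ξ + D₁ g (h • ξ) * D₂ h ξ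

variable {D₁ D₂}

theorem P_P (h₁ : IsCoc D₁) (h₂ : IsCoc D₂) (g h : G) (kg kh : X → R) (y : X × R × R) :
    P D₁ D₂ g kg (P D₁ D₂ h kh y) = P D₁ D₂ (g * h) (cup D₁ D₂ g h kg kh) y := by
  obtain ⟨ξ, a, z⟩ := y
  simp only [P, cup, h₁ g h ξ, h₂ g h ξ, mul_smul]
  refine Prod.ext rfl (Prod.ext ?_ ?_)
  · show a + D₂ h ξ + D₂ g (h • ξ) = a + (D₂ g (h • ξ) + D₂ h ξ)
    ring
  · show z + kh ξ + D₁ h ξ * a + kg (h • ξ) + D₁ g (h • ξ) * (a + D₂ h ξ) =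
      z + (kg (h • ξ) + kh ξ + D₁ g (h • ξ) * D₂ h ξ) + (D₁ g (h • ξ) + D₁ h ξ) * a
    ring

/-- a transformation with trivial parameters is the identity -/
theorem P_eq_self {g : G} {k : X → R} (hg : ∀ ξ : X, g • ξ = ξ) (h₁ : ∀ ξ, D₁ g ξ = 0)
    (h₂ : ∀ ξ, D₂ g ξ = 0) (hk : ∀ ξ, k ξ = 0) (y : X × R × R) : P D₁ D₂ g k y = y := by
  obtain ⟨ξ, a, z⟩ := y
  simp only [P, hg, h₁, h₂, hk, add_zero, zero_mul]

theorem P_base (g : G) (k : X → R) (ξ : X) : (P D₁ D₂ g k (ξ, 0, 0)).2.2 = k ξ := by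
  simp only [P, mul_zero, add_zero, zero_add]

end

end Heis

theorem exists_isCupPrim {X : Type*} [MulAction SL(2, ℤ) X] {R : Type*} [CommRing R]
    (D₁ D₂ : SL(2, ℤ) → X → R) (h₁ : IsCoc D₁) (h₂ : IsCoc D₂)
    (hneg : ∀ ξ : X, (-1 : SL(2, ℤ)) • ξ = ξ)
    (h₁n : ∀ ξ, D₁ (-1) ξ = 0) (h₂n : ∀ ξ, D₂ (-1) ξ = 0) (kS kU : X → R)
    (hS : ∀ ξ, kS (S • ξ) + kS ξ + D₁ S (S • ξ) * D₂ S ξ = 0)
    (hU : ∀ ξ, kU ((S * T) • (S * T) • ξ) + kU ((S * T) • ξ) + kU ξ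
      + D₁ (S * T) ((S * T) • ξ) * D₂ (S * T) ξ
      + D₁ (S * T) ((S * T) • (S * T) • ξ) * (D₂ (S * T) ((S * T) • ξ) + D₂ (S * T) ξ) = 0) :
    ∃ K : SL(2, ℤ) → X → R, IsCupPrim D₁ D₂ K ∧ (∀ ξ, K S ξ = kS ξ) ∧ ∀ ξ, K (S * T) ξ = kU ξ := by
  -- the two generators
  have hSS : (S * S : SL(2, ℤ)) = -1 := by
    rw [← pow_two]
    exact Lib.PSL2Pres.S_sq
  have hUUU : ((S * T) * (S * T) * (S * T) : SL(2, ℤ)) = -1 := by
    rw [← Lib.PSL2Pres.ST_cube, pow_succ, pow_two]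
  have hs : ∀ y, Heis.P D₁ D₂ S kS (Heis.P D₁ D₂ S kS y) = y := by
    intro y
    rw [Heis.P_P h₁ h₂, hSS]
    exact Heis.P_eq_self hneg h₁n h₂n hS y
  have hu : ∀ y, Heis.P D₁ D₂ (S * T) kU (Heis.P D₁ D₂ (S * T) kU (Heis.P D₁ D₂ (S * T) kU y)) = y := by
    intro y
    rw [Heis.P_P h₁ h₂, Heis.P_P h₁ h₂, hUUU]
    refine Heis.P_eq_self hneg h₁n h₂n (fun ξ => ?_) y
    simp only [Heis.cup, h₁ (S * T) (S * T) ((S * T) • ξ)]
    rw [← hU ξ]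
    ring
  let s : Equiv.Perm (X × R × R) :=
    ⟨Heis.P D₁ D₂ S kS, Heis.P D₁ D₂ S kS, hs, hs⟩
  let u : Equiv.Perm (X × R × R) :=
    ⟨Heis.P D₁ D₂ (S * T) kU, fun y => Heis.P D₁ D₂ (S * T) kU (Heis.P D₁ D₂ (S * T) kU y), hu, hu⟩
  have hs2 : s ^ 2 = 1 := by
    ext1 y
    rw [pow_two]
    exact hs y
  have hu3 : u ^ 3 = 1 := by
    ext1 y
    rw [pow_succ', pow_two]
    exact hu y
  obtain ⟨Θ, hΘS, hΘU⟩ := Lib.PSL2Pres.exists_hom s u hs2 hu3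
  -- every `Θ g` is of the shape `P g k`
  let H : Subgroup SL(2, ℤ) :=
    { carrier := {g | ∃ k : X → R, ∀ y, Θ g y = Heis.P D₁ D₂ g k y}
      one_mem' := ⟨fun _ => 0, fun y => by
        rw [map_one, Heis.P_eq_self (fun ξ => one_smul _ ξ) h₁.one h₂.one (fun _ => rfl)]
        rfl⟩
      mul_mem' := by
        rintro g h ⟨kg, hg⟩ ⟨kh, hh⟩
        refine ⟨Heis.cup D₁ D₂ g h kg kh, fun y => ?_⟩
        rw [map_mul, Equiv.Perm.mul_apply, hh, hg, Heis.P_P h₁ h₂]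
      inv_mem' := by
        rintro g ⟨k, hg⟩
        refine ⟨fun η => - k (g⁻¹ • η) - D₁ g⁻¹ η * D₂ g (g⁻¹ • η), fun y => ?_⟩
        have h3 := Heis.P_P h₁ h₂ g⁻¹ g
          (fun η => - k (g⁻¹ • η) - D₁ g⁻¹ η * D₂ g (g⁻¹ • η)) k (Θ g⁻¹ y)
        rw [← hg, ← Equiv.Perm.mul_apply, ← map_mul, mul_inv_cancel, map_one, inv_mul_cancel,
          Heis.P_eq_self (fun ξ => one_smul _ ξ) h₁.one h₂.one (fun ξ => by
            simp only [Heis.cup, inv_smul_smul]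
            ring)] at h3
        exact h3.symm }
  have hHS : S ∈ H := ⟨kS, fun y => by rw [hΘS]; rfl⟩
  have hHU : S * T ∈ H := ⟨kU, fun y => by rw [hΘU]; rfl⟩
  have hHT : T ∈ H := by
    have := H.mul_mem (H.inv_mem hHS) hHU
    rwa [inv_mul_cancel_left] at this
  have hH : ∀ g : SL(2, ℤ), g ∈ H := by
    intro g
    have h4 : Subgroup.closure ({S, T} : Set SL(2, ℤ)) ≤ H := by
      rw [Subgroup.closure_le]
      rintro x (rfl | hx)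
      · exact hHS
      · rw [Set.mem_singleton_iff] at hx
        rw [hx]
        exact hHT
    rw [SpecialLinearGroup.SL2Z_generators] at h4
    exact h4 (Subgroup.mem_top g)
  refine ⟨fun g ξ => (Θ g (ξ, 0, 0)).2.2, fun g h ξ => ?_, fun ξ => ?_, fun ξ => ?_⟩
  · obtain ⟨kg, hg⟩ := hH g
    obtain ⟨kh, hh⟩ := hH h
    show (Θ (g * h) (ξ, 0, 0)).2.2 = (Θ g (h • ξ, 0, 0)).2.2 + (Θ h (ξ, 0, 0)).2.2 + _
    rw [map_mul, Equiv.Perm.mul_apply, hh, hg, hg, Heis.P_P h₁ h₂, Heis.P_base, Heis.P_base,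
      Heis.P_base]
    rfl
  · show (Θ S (ξ, 0, 0)).2.2 = kS ξ
    rw [hΘS]
    exact Heis.P_base S kS ξ
  · show (Θ (S * T) (ξ, 0, 0)).2.2 = kU ξ
    rw [hΘU]
    exact Heis.P_base (S * T) kU ξ

end Fermat.Agent.S41.Kappa
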