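import Fermat.Agent.S41.Kappa.PosPar

/-!
# S41, Kappa 4: systems of primitive positive parabolic classes  (owner: see task S41-K4)
-/

set_option autoImplicit false

open CongruenceSubgroup Matrix Matrix.SpecialLinearGroup ModularGroup
open scoped MatrixGroups

namespace Fermat.Agent.S41.Kappa

variable {Γ : Subgroup SL(2, ℤ)}

/-- value of a parabolic class function on a conjugate of a power. -/
theorem IsParClassFn.apply_of_isConjPow {f : Γ → ℤ} (hf : IsParClassFn Γ f) {u v : Γ} {k : ℕ}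
    (hv : IsPosPar (v : SL(2, ℤ))) (hk : 0 < k) (h : IsConjPow Γ u v k) : f u = k * f v := by
  obtain ⟨η, h⟩ := h
  have hvk : IsPosPar ((v ^ k : Γ) : SL(2, ℤ)) := by
    rw [Subgroup.coe_pow]
    exact hv.pow hk
  have hw : IsPosPar ((η * v ^ k * η⁻¹ : Γ) : SL(2, ℤ)) := by
    rw [Subgroup.coe_mul, Subgroup.coe_mul, Subgroup.coe_inv]
    exact hvk.conj _
  have e : f (η * v ^ k * η⁻¹) = k * f v := by
    rw [hf.conj _ η hvk, hf.pow v k hv]
  rcases h with h | h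
  · rw [Subtype.ext h, e]
  · rw [hf.neg _ u hw h, e]

theorem parSystem_neg_pow (c : SL(2, ℤ)) (k : ℕ) : (-c) ^ k = c ^ k ∨ (-c) ^ k = -(c ^ k) := by
  rcases Nat.even_or_odd k with hk | hk
  · exact Or.inl (hk.neg_pow _)
  · exact Or.inr (hk.neg_pow _)

/-- transitivity. -/
theorem IsConjPow.trans {u v w : Γ} {k l : ℕ} (h : IsConjPow Γ u v k) (h' : IsConjPow Γ v w l) :
    IsConjPow Γ u w (l * k) := by
  obtain ⟨η, h⟩ := h
  obtain ⟨η', h'⟩ := h'
  refine ⟨η * η', ?_⟩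
  simp only [Subgroup.coe_mul, Subgroup.coe_pow, Subgroup.coe_inv] at h h' ⊢
  have e : (η : SL(2, ℤ)) * ((η' : SL(2, ℤ)) * (w : SL(2, ℤ)) ^ l * (η' : SL(2, ℤ))⁻¹) ^ k *
      (η : SL(2, ℤ))⁻¹ =
      (η : SL(2, ℤ)) * η' * (w : SL(2, ℤ)) ^ (l * k) * ((η : SL(2, ℤ)) * η')⁻¹ := by
    rw [conj_pow, pow_mul, _root_.mul_inv_rev]
    simp only [mul_assoc]
  have hvk : (v : SL(2, ℤ)) ^ k =
        ((η' : SL(2, ℤ)) * (w : SL(2, ℤ)) ^ l * (η' : SL(2, ℤ))⁻¹) ^ k ∨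
      (v : SL(2, ℤ)) ^ k =
        -(((η' : SL(2, ℤ)) * (w : SL(2, ℤ)) ^ l * (η' : SL(2, ℤ))⁻¹) ^ k) := by
    rcases h' with h' | h'
    · exact Or.inl (by rw [h'])
    · rw [h']
      exact parSystem_neg_pow _ k
  rw [← e]
  rcases h with h | h <;> rcases hvk with h2 | h2 <;> rw [h, h2]
  · exact Or.inl rfl
  · right
    rw [mul_neg, neg_mul]
  · exact Or.inr rfl
  · left
    rw [mul_neg, neg_mul, neg_neg]

/-- **Independence of the system.** -/
theorem IsParSystem.sum_eq {I J : Type*} [Fintype I] [Fintype J] {π : I → Γ} {π' : J → Γ}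
    (h : IsParSystem Γ π) (h' : IsParSystem Γ π') {f : Γ → ℤ} (hf : IsParClassFn Γ f) :
    ∑ i, f (π i) = ∑ j, f (π' j) := by
  choose σ kk hk hσ using fun i => h'.exists_conj (π i) (h.pos i)
  choose τ ll hl hτ using fun j => h.exists_conj (π' j) (h'.pos j)
  have hτσ : ∀ i, τ (σ i) = i := fun i =>
    (h.unique i (τ (σ i)) _ (Nat.mul_pos (hl _) (hk _)) ((hσ i).trans (hτ (σ i)))).symm
  have hστ : ∀ j, σ (τ j) = j := fun j =>
    (h'.unique j (σ (τ j)) _ (Nat.mul_pos (hk _) (hl _)) ((hτ j).trans (hσ (τ j)))).symm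
  let e : I ≃ J := ⟨σ, τ, hτσ, hστ⟩
  have key : ∀ i, f (π i) = f (π' (σ i)) := by
    intro i
    have h1 : f (π i) = kk i * f (π' (σ i)) := hf.apply_of_isConjPow (h'.pos _) (hk i) (hσ i)
    have h2 : f (π' (σ i)) = ll (σ i) * f (π i) := by
      have := hf.apply_of_isConjPow (h.pos _) (hl (σ i)) (hτ (σ i))
      rwa [hτσ] at this
    by_cases h0 : f (π i) = 0
    · rw [h2, h0, mul_zero]
    · have h3 : ((kk i * ll (σ i) : ℕ) : ℤ) * f (π i) = 1 * f (π i) := by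
        push_cast
        rw [one_mul, mul_assoc, ← h2, ← h1]
      have h4 : ((kk i * ll (σ i) : ℕ) : ℤ) = 1 := mul_right_cancel₀ h0 h3
      have h5 : kk i * ll (σ i) = 1 := by exact_mod_cast h4
      have h6 : kk i = 1 := Nat.eq_one_of_mul_eq_one_right h5
      rw [h1, h6]
      simp
  calc ∑ i, f (π i) = ∑ i, f (π' (e i)) := Finset.sum_congr rfl fun i _ => key i
    _ = ∑ j, f (π' j) := Equiv.sum_comp e fun j => f (π' j)

theorem parSystem_isConjPow_map (c : Γ ≃* Γ)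
    (hneg : ∀ u v : Γ, (v : SL(2, ℤ)) = -(u : SL(2, ℤ)) → (c v : SL(2, ℤ)) = -(c u : SL(2, ℤ)))
    {u v : Γ} {k : ℕ} (h : IsConjPow Γ u v k) : IsConjPow Γ (c u) (c v) k := by
  obtain ⟨η, h⟩ := h
  refine ⟨c η, ?_⟩
  have e : c η * c v ^ k * (c η)⁻¹ = c (η * v ^ k * η⁻¹) := by
    rw [map_mul, map_mul, map_pow, map_inv]
  rw [e]
  rcases h with h | h
  · exact Or.inl (by rw [Subtype.ext h])
  · exact Or.inr (hneg _ _ h)

theorem parSystem_hneg_symm (c : Γ ≃* Γ)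
    (hneg : ∀ u v : Γ, (v : SL(2, ℤ)) = -(u : SL(2, ℤ)) → (c v : SL(2, ℤ)) = -(c u : SL(2, ℤ)))
    (u v : Γ) (h : (v : SL(2, ℤ)) = -(u : SL(2, ℤ))) :
    (c.symm v : SL(2, ℤ)) = -(c.symm u : SL(2, ℤ)) := by
  -- `m = -1 ∈ Γ`
  have hm : ((v * u⁻¹ : Γ) : SL(2, ℤ)) = -1 := by
    rw [Subgroup.coe_mul, Subgroup.coe_inv, h, neg_mul, mul_inv_cancel]
  have hz : ((v * u⁻¹ * c.symm u : Γ) : SL(2, ℤ)) = -(c.symm u : SL(2, ℤ)) := by
    rw [Subgroup.coe_mul, hm, neg_mul, one_mul]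
  have h1 := hneg _ _ hz
  rw [MulEquiv.apply_symm_apply, ← h] at h1
  have h2 : c (v * u⁻¹ * c.symm u) = v := Subtype.ext h1
  have h3 : c.symm v = v * u⁻¹ * c.symm u := by
    rw [← h2, MulEquiv.symm_apply_apply, h2]
  rw [h3, hz]

/-- the image of a system under an automorphism preserving positivity and signs. -/
theorem IsParSystem.map {I : Type*} {π : I → Γ} (h : IsParSystem Γ π) (c : Γ ≃* Γ)
    (hc : ∀ u : Γ, IsPosPar (c u : SL(2, ℤ)) ↔ IsPosPar (u : SL(2, ℤ)))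
    (hneg : ∀ u v : Γ, (v : SL(2, ℤ)) = -(u : SL(2, ℤ)) → (c v : SL(2, ℤ)) = -(c u : SL(2, ℤ))) :
    IsParSystem Γ (fun i => c (π i)) := by
  refine ⟨fun i => (hc _).2 (h.pos i), fun u hu => ?_, fun i j k hk hij => ?_⟩
  · have hu' : IsPosPar (c.symm u : SL(2, ℤ)) := by
      rw [← hc, MulEquiv.apply_symm_apply]
      exact hu
    obtain ⟨i, k, hk, hik⟩ := h.exists_conj _ hu'
    refine ⟨i, k, hk, ?_⟩
    have := parSystem_isConjPow_map c hneg hik
    rwa [MulEquiv.apply_symm_apply] at this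
  · have := parSystem_isConjPow_map c.symm (parSystem_hneg_symm c hneg) hij
    rw [MulEquiv.symm_apply_apply, MulEquiv.symm_apply_apply] at this
    exact h.unique i j k hk this

/-- composition of a parabolic class function with such an automorphism. -/
theorem IsParClassFn.comp {f : Γ → ℤ} (hf : IsParClassFn Γ f) (c : Γ ≃* Γ)
    (hc : ∀ u : Γ, IsPosPar (c u : SL(2, ℤ)) ↔ IsPosPar (u : SL(2, ℤ)))
    (hneg : ∀ u v : Γ, (v : SL(2, ℤ)) = -(u : SL(2, ℤ)) → (c v : SL(2, ℤ)) = -(c u : SL(2, ℤ))) :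
    IsParClassFn Γ (fun u => f (c u)) := by
  refine ⟨fun u η hu => ?_, fun u k hu => ?_, fun u v hu huv => ?_⟩
  · rw [map_mul, map_mul, map_inv]
    exact hf.conj _ _ ((hc u).2 hu)
  · rw [map_pow]
    exact hf.pow _ _ ((hc u).2 hu)
  · exact hf.neg _ _ ((hc u).2 hu) (hneg u v huv)

end Fermat.Agent.S41.Kappa
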