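import Fermat.Agent.S41.Kappa.Formula
import Fermat.Agent.S41.Kappa.ParSystem
import Fermat.Agent.S41.Kappa.ClassFn
import Fermat.Agent.S41.Kappa.AlEquiv

/-!
# S41, Kappa: the Atkin-Lehner operator is an isometry  (owner: helper140)
-/

set_option autoImplicit false

open CongruenceSubgroup Matrix Matrix.SpecialLinearGroup ModularGroup
open scoped MatrixGroups

namespace Fermat.Agent.S41.Kappa

open Fermat.Agent.S41.PD Fermat.Agent.Lib.HeckeHom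

/-- invariance of `cuspSum` under an automorphism preserving positive parabolic elements. -/
theorem cuspSum_comp {M : ℕ} [NeZero M] {f : Gamma0 M → ℤ} (hf : IsParClassFn (Gamma0 M) f)
    (c : Gamma0 M ≃* Gamma0 M)
    (hc : ∀ u : Gamma0 M, IsPosPar (c u : SL(2, ℤ)) ↔ IsPosPar (u : SL(2, ℤ)))
    (hneg : ∀ u v : Gamma0 M, (v : SL(2, ℤ)) = -(u : SL(2, ℤ)) →
      (c v : SL(2, ℤ)) = -(c u : SL(2, ℤ)))
    {n : ℕ} (hn0 : 0 < n) (hn : M ∣ n) :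
    cuspSum M n (fun u => f (c u)) = cuspSum M n f := by
  obtain ⟨I, _, π, hπ, hsum⟩ := exists_parSystem M
  rw [hsum _ (hf.comp c hc hneg) n hn0 hn, hsum _ hf n hn0 hn]
  congr 1
  exact (hπ.map c hc hneg).sum_eq hπ hf

/-- **The Atkin-Lehner operator is an isometry** (in terms of cusp potentials). -/
theorem omega3_al (M ℓ : ℕ) [NeZero (M * ℓ)] (hℓ : ℓ.Prime) (h : Nat.Coprime ℓ M)
    {x y : Additive (Gamma0 (M * ℓ)) →+ ℤ} (hx : x ∈ Lam (M * ℓ)) (hy : y ∈ Lam (M * ℓ))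
    {u v u' v' : OnePoint ℚ → ℤ} (hu : IsCuspPot (M * ℓ) u x) (hv : IsCuspPot (M * ℓ) v y)
    (hu' : IsCuspPot (M * ℓ) u' (al M ℓ hℓ h x)) (hv' : IsCuspPot (M * ℓ) v' (al M ℓ hℓ h y)) :
    omega3 (M * ℓ) (manin (M * ℓ) u') (manin (M * ℓ) v') =
      omega3 (M * ℓ) (manin (M * ℓ) u) (manin (M * ℓ) v) := by
  obtain ⟨c, -, hc, hneg, hal⟩ := exists_alEquiv M ℓ hℓ h
  obtain ⟨κ, hκ, -⟩ := exists_kappa hu hv
  have hκ' := hκ.comp c.toMonoidHom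
  rw [← hal ℤ x, ← hal ℤ y] at hκ'
  have hn0 : 0 < M * ℓ := Nat.pos_of_ne_zero (NeZero.ne _)
  have h1 := six_mul_cuspSum hu' hv' hκ' (dvd_refl (M * ℓ))
  have h2 := six_mul_cuspSum hu hv hκ (dvd_refl (M * ℓ))
  have h3 : cuspSum (M * ℓ) (M * ℓ) (fun g => κ (c.toMonoidHom g)) = cuspSum (M * ℓ) (M * ℓ) κ :=
    cuspSum_comp (hκ.isParClassFn hx hy) c hc hneg hn0 (dvd_refl _)
  rw [h3, h2] at h1
  have hne : ((M * ℓ : ℕ) : ℤ) ≠ 0 := by exact_mod_cast hn0.ne'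
  exact (mul_left_cancel₀ hne h1).symm

end Fermat.Agent.S41.Kappa
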