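import Fermat.Agent.S41.Kappa.Defs

/-!
# S41, Kappa 3: positive parabolic elements of `SL₂(ℤ)`  (owner: see task S41-K3; proofs helper109)
-/

set_option autoImplicit false

open CongruenceSubgroup Matrix Matrix.SpecialLinearGroup ModularGroup
open scoped MatrixGroups

namespace Fermat.Agent.S41.Kappa

/-! ### entries -/

theorem PosPar.T_zpow_apply (k : ℤ) :
    (T ^ k) 0 0 = 1 ∧ (T ^ k) 0 1 = k ∧ (T ^ k) 1 0 = 0 ∧ (T ^ k) 1 1 = 1 := by
  have h := coe_T_zpow k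
  refine ⟨?_, ?_, ?_, ?_⟩
  · exact congrFun (congrFun h 0) 0
  · exact congrFun (congrFun h 0) 1
  · exact congrFun (congrFun h 1) 0
  · exact congrFun (congrFun h 1) 1

theorem PosPar.T_pow_apply (k : ℕ) :
    (T ^ k) 0 0 = 1 ∧ (T ^ k) 0 1 = k ∧ (T ^ k) 1 0 = 0 ∧ (T ^ k) 1 1 = 1 := by
  have := PosPar.T_zpow_apply (k : ℤ)
  rwa [zpow_natCast] at this

theorem PosPar.det_eq (g : SL(2, ℤ)) : g 0 0 * g 1 1 - g 0 1 * g 1 0 = 1 := by
  have := g.det_coe
  rwa [Matrix.det_fin_two] at this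

theorem PosPar.mul_apply (g h : SL(2, ℤ)) (i j : Fin 2) :
    (g * h) i j = g i 0 * h 0 j + g i 1 * h 1 j := by
  have := congrFun (congrFun (Matrix.SpecialLinearGroup.coe_mul g h) i) j
  rw [Matrix.mul_apply, Fin.sum_univ_two] at this
  exact this

theorem PosPar.neg_apply (g : SL(2, ℤ)) (i j : Fin 2) : (-g) i j = - g i j := by
  exact congrFun (congrFun (Matrix.SpecialLinearGroup.coe_neg g) i) j

theorem PosPar.inv_apply (g : SL(2, ℤ)) :
    g⁻¹ 0 0 = g 1 1 ∧ g⁻¹ 0 1 = - g 0 1 ∧ g⁻¹ 1 0 = - g 1 0 ∧ g⁻¹ 1 1 = g 0 0 := by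
  rw [SL2_inv_expl g]
  exact ⟨rfl, rfl, rfl, rfl⟩

theorem PosPar.ext {g h : SL(2, ℤ)} (h00 : g 0 0 = h 0 0) (h01 : g 0 1 = h 0 1)
    (h10 : g 1 0 = h 1 0) (h11 : g 1 1 = h 1 1) : g = h := by
  ext i j
  fin_cases i <;> fin_cases j
  · exact h00
  · exact h01
  · exact h10
  · exact h11

/-- `T ^ k`, `k > 0`, is positive parabolic. -/
theorem isPosPar_T_pow {k : ℕ} (hk : 0 < k) : IsPosPar (T ^ k) := by
  obtain ⟨h00, h01, h10, h11⟩ := PosPar.T_pow_apply k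
  unfold IsPosPar
  rw [h00, h01, h10, h11]
  refine ⟨by norm_num, ?_⟩
  have : (0 : ℤ) < k := by exact_mod_cast hk
  linarith

theorem IsPosPar.neg {g : SL(2, ℤ)} (h : IsPosPar g) : IsPosPar (-g) := by
  unfold IsPosPar at *
  simp only [PosPar.neg_apply]
  obtain ⟨h1, h2⟩ := h
  constructor
  · linear_combination h1
  · have e : (-g 0 0 + -g 1 1) * (-g 0 1 - -g 1 0) = (g 0 0 + g 1 1) * (g 0 1 - g 1 0) := by ring
    rw [e]
    exact h2

/-- the positivity statement behind the invariance under conjugation -/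
theorem PosPar.form_pos (α β γ δ A B C : ℝ) (hD : 0 < α * δ - β * γ) (hB : B ^ 2 = A * C)
    (hpos : 0 < A + C) :
    0 < (α ^ 2 + γ ^ 2) * A + 2 * (α * β + γ * δ) * B + (β ^ 2 + δ ^ 2) * C := by
  have hA : 0 ≤ A := by
    by_contra h
    push Not at h
    nlinarith [sq_nonneg B]
  rcases hA.eq_or_lt with hA0 | hA0
  · -- `A = 0`
    have hB0 : B = 0 := by
      rw [← hA0, zero_mul] at hB
      exact pow_eq_zero_iff (two_ne_zero) |>.1 hB
    have hC : 0 < C := by linarith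
    have hS : 0 < β ^ 2 + δ ^ 2 := by
      by_contra h
      have h1 : β = 0 := by nlinarith [sq_nonneg β, sq_nonneg δ]
      have h2 : δ = 0 := by nlinarith [sq_nonneg β, sq_nonneg δ]
      rw [h1, h2] at hD
      simp at hD
    rw [← hA0, hB0]
    simp only [mul_zero, zero_add]
    exact mul_pos hS hC
  · by_contra hX
    push Not at hX
    have e : A * ((α ^ 2 + γ ^ 2) * A + 2 * (α * β + γ * δ) * B + (β ^ 2 + δ ^ 2) * C)
        = (α * A + β * B) ^ 2 + (γ * A + δ * B) ^ 2 := by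
      linear_combination (-(β ^ 2 + δ ^ 2)) * hB
    have h1 : (α * A + β * B) ^ 2 + (γ * A + δ * B) ^ 2 ≤ 0 := by
      rw [← e]
      exact mul_nonpos_of_nonneg_of_nonpos hA0.le hX
    have h2 : α * A + β * B = 0 := by nlinarith [sq_nonneg (α * A + β * B), sq_nonneg (γ * A + δ * B)]
    have h3 : γ * A + δ * B = 0 := by nlinarith [sq_nonneg (α * A + β * B), sq_nonneg (γ * A + δ * B)]
    have h4 : (α * δ - β * γ) * A = 0 := by linear_combination δ * h2 - β * h3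
    exact (mul_pos hD hA0).ne' h4


theorem PosPar.mapGL_apply (g : SL(2, ℤ)) (i j : Fin 2) :
    ((mapGL ℝ g : GL (Fin 2) ℝ) : Matrix (Fin 2) (Fin 2) ℝ) i j = ((g i j : ℤ) : ℝ) := by
  rw [mapGL_coe_matrix]
  rfl

/-- invariance under conjugation by a real matrix of positive determinant. -/
theorem IsPosPar.of_conj {g g' : SL(2, ℤ)} (h : IsPosPar g) (w : GL (Fin 2) ℝ)
    (hw : 0 < (w.det : ℝ)) (e : w * mapGL ℝ g = mapGL ℝ g' * w) : IsPosPar g' := by
  have he : ∀ i j : Fin 2,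
      (w : Matrix (Fin 2) (Fin 2) ℝ) i 0 * ((g 0 j : ℤ) : ℝ)
        + (w : Matrix (Fin 2) (Fin 2) ℝ) i 1 * ((g 1 j : ℤ) : ℝ)
      = ((g' i 0 : ℤ) : ℝ) * (w : Matrix (Fin 2) (Fin 2) ℝ) 0 j
        + ((g' i 1 : ℤ) : ℝ) * (w : Matrix (Fin 2) (Fin 2) ℝ) 1 j := by
    intro i j
    have h1 := congrArg (fun u : GL (Fin 2) ℝ => (u : Matrix (Fin 2) (Fin 2) ℝ) i j) e
    simp only [Matrix.GeneralLinearGroup.coe_mul, Matrix.mul_apply, Fin.sum_univ_two,
      PosPar.mapGL_apply] at h1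
    exact h1
  have hD : 0 < (w : Matrix (Fin 2) (Fin 2) ℝ) 0 0 * (w : Matrix (Fin 2) (Fin 2) ℝ) 1 1
      - (w : Matrix (Fin 2) (Fin 2) ℝ) 0 1 * (w : Matrix (Fin 2) (Fin 2) ℝ) 1 0 := by
    rw [Matrix.GeneralLinearGroup.val_det_apply, Matrix.det_fin_two] at hw
    exact hw
  have e00 := he 0 0
  have e01 := he 0 1
  have e10 := he 1 0
  have e11 := he 1 1
  clear he
  generalize (w : Matrix (Fin 2) (Fin 2) ℝ) 0 0 = α at e00 e01 e10 e11 hD
  generalize (w : Matrix (Fin 2) (Fin 2) ℝ) 0 1 = β at e00 e01 e10 e11 hD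
  generalize (w : Matrix (Fin 2) (Fin 2) ℝ) 1 0 = γ at e00 e01 e10 e11 hD
  generalize (w : Matrix (Fin 2) (Fin 2) ℝ) 1 1 = δ at e00 e01 e10 e11 hD
  obtain ⟨h1, h2⟩ := h
  have hdet := PosPar.det_eq g
  unfold IsPosPar
  generalize g 0 0 = a at *
  generalize g 0 1 = b at *
  generalize g 1 0 = c at *
  generalize g 1 1 = d at *
  generalize g' 0 0 = a' at *
  generalize g' 0 1 = b' at *
  generalize g' 1 0 = c' at *
  generalize g' 1 1 = d' at *
  have ht : ((a' : ℝ) + d') = a + d := by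
    apply mul_left_cancel₀ hD.ne'
    linear_combination (-δ) * e00 + γ * e01 + β * e10 - α * e11
  have htZ : a' + d' = a + d := by exact_mod_cast ht
  have h1R : ((a : ℝ) + d) ^ 2 = 4 := by exact_mod_cast h1
  have h2R : 0 < ((a : ℝ) + d) * (b - c) := by exact_mod_cast h2
  have hdetR : (a : ℝ) * d - b * c = 1 := by exact_mod_cast hdet
  have hX := PosPar.form_pos α β γ δ (((a : ℝ) + d) * b) (((a : ℝ) + d) * ((d - a) / 2))
    (-(((a : ℝ) + d) * c)) hD
    (by linear_combination ((d - a : ℝ) ^ 2 / 4 + b * c) * h1R - 4 * hdetR + h1R)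
    (by linarith)
  have hY : (α ^ 2 + γ ^ 2) * (((a : ℝ) + d) * b)
      + 2 * (α * β + γ * δ) * (((a : ℝ) + d) * ((d - a) / 2))
      + (β ^ 2 + δ ^ 2) * (-(((a : ℝ) + d) * c))
      = (α * δ - β * γ) * (((a : ℝ) + d) * (b' - c')) := by
    linear_combination ((a : ℝ) + d) * ((-β) * e00 + α * e01 - δ * e10 + γ * e11)
  rw [hY] at hX
  have hZ : 0 < ((a : ℝ) + d) * (b' - c') := (mul_pos_iff_of_pos_left hD).1 hX
  rw [htZ]
  exact ⟨h1, by exact_mod_cast hZ⟩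


theorem IsPosPar.conj {g : SL(2, ℤ)} (h : IsPosPar g) (η : SL(2, ℤ)) :
    IsPosPar (η * g * η⁻¹) := by
  refine h.of_conj (mapGL ℝ η) ?_ ?_
  · rw [det_mapGL]
    exact one_pos
  · rw [← map_mul, ← map_mul, inv_mul_cancel_right]

/-- a primitive vector in the kernel of a nilpotent integral matrix -/
theorem PosPar.exists_kernel (m b c : ℤ) (h : m ^ 2 = - (b * c)) :
    ∃ x z : ℤ, IsCoprime x z ∧ m * x + b * z = 0 ∧ c * x - m * z = 0 := by
  by_cases h0 : b = 0 ∧ m = 0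
  · obtain ⟨rfl, rfl⟩ := h0
    exact ⟨0, 1, isCoprime_zero_left.2 isUnit_one, by ring, by ring⟩
  · have hG : 0 < Int.gcd b m := by
      rw [Int.gcd_pos_iff]
      by_contra hcon
      push Not at hcon
      exact h0 hcon
    have hG' : ((Int.gcd b m : ℕ) : ℤ) ≠ 0 := by exact_mod_cast hG.ne'
    obtain ⟨x, hx⟩ : ((Int.gcd b m : ℕ) : ℤ) ∣ b := Int.gcd_dvd_left ..
    obtain ⟨z, hz⟩ : ((Int.gcd b m : ℕ) : ℤ) ∣ m := Int.gcd_dvd_right ..
    have hcop : IsCoprime x z := by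
      have h1 := Int.gcd_div_gcd_div_gcd hG
      rw [Int.isCoprime_iff_gcd_eq_one]
      have e1 : b / ((Int.gcd b m : ℕ) : ℤ) = x := Int.ediv_eq_of_eq_mul_right hG' hx
      have e2 : m / ((Int.gcd b m : ℕ) : ℤ) = z := Int.ediv_eq_of_eq_mul_right hG' hz
      rwa [e1, e2] at h1
    refine ⟨x, -z, hcop.neg_right, ?_, ?_⟩
    · generalize ((Int.gcd b m : ℕ) : ℤ) = G at *
      rw [hx, hz]
      ring
    · generalize ((Int.gcd b m : ℕ) : ℤ) = G at *
      apply mul_left_cancel₀ hG'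
      have : G * (c * x - m * -z) = (G * x) * c + m * (G * z) := by ring
      rw [this, ← hx, ← hz, mul_zero]
      linear_combination h

/-- the case of trace `2` -/
theorem PosPar.exists_conj_T_of_trace {g : SL(2, ℤ)} (h : IsPosPar g) (ht : g 0 0 + g 1 1 = 2) :
    ∃ (η : SL(2, ℤ)) (k : ℕ), 0 < k ∧ g = η⁻¹ * T ^ k * η := by
  have hdet := PosPar.det_eq g
  obtain ⟨x, z, hcop, hk1, hk2⟩ := PosPar.exists_kernel (g 0 0 - 1) (g 0 1) (g 1 0)
    (by
      have e : g 1 1 = 2 - g 0 0 := by linarith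
      rw [e] at hdet
      linear_combination -hdet)
  obtain ⟨P, hP0, hP1⟩ := hcop.exists_SL2_col 0
  have hPdet := PosPar.det_eq P
  have hpos := h.conj P⁻¹
  rw [inv_inv] at hpos
  obtain ⟨i00, i01, i10, i11⟩ := PosPar.inv_apply P
  have h00 : (P⁻¹ * g * P) 0 0 = 1 := by
    rw [PosPar.mul_apply, PosPar.mul_apply, PosPar.mul_apply, i00, i01, hP0, hP1]
    rw [hP0, hP1] at hPdet
    have e : g 1 1 = 2 - g 0 0 := by linarith
    rw [e]
    linear_combination P 1 1 * hk1 - P 0 1 * hk2 + hPdet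
  have h10 : (P⁻¹ * g * P) 1 0 = 0 := by
    rw [PosPar.mul_apply, PosPar.mul_apply, PosPar.mul_apply, i10, i11, hP0, hP1]
    have e : g 1 1 = 2 - g 0 0 := by linarith
    rw [e]
    linear_combination (-z) * hk1 + x * hk2
  have hdet' := PosPar.det_eq (P⁻¹ * g * P)
  rw [h00, h10, mul_zero, sub_zero, one_mul] at hdet'
  have hk : 0 < (P⁻¹ * g * P) 0 1 := by
    have := hpos.2
    rw [h00, h10, hdet'] at this
    linarith
  obtain ⟨k, hkk⟩ : ∃ k : ℕ, (P⁻¹ * g * P) 0 1 = k :=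
    ⟨((P⁻¹ * g * P) 0 1).toNat, (Int.toNat_of_nonneg hk.le).symm⟩
  have hT : P⁻¹ * g * P = T ^ k := by
    obtain ⟨t00, t01, t10, t11⟩ := PosPar.T_pow_apply k
    exact PosPar.ext (by rw [h00, t00]) (by rw [hkk, t01]) (by rw [h10, t10]) (by rw [hdet', t11])
  refine ⟨P⁻¹, k, ?_, ?_⟩
  · rw [hkk] at hk
    exact_mod_cast hk
  · rw [← hT, inv_inv]
    group

/-- classification: a positive parabolic element is conjugate to `± T ^ k`, `k > 0`. -/
theorem IsPosPar.exists_conj_T {g : SL(2, ℤ)} (h : IsPosPar g) :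
    ∃ (η : SL(2, ℤ)) (k : ℕ), 0 < k ∧ (g = η⁻¹ * T ^ k * η ∨ g = -(η⁻¹ * T ^ k * η)) := by
  have h1 : g 0 0 + g 1 1 = 2 ∨ g 0 0 + g 1 1 = -2 := by
    have h2 : (g 0 0 + g 1 1 - 2) * (g 0 0 + g 1 1 + 2) = 0 := by linear_combination h.1
    rcases mul_eq_zero.1 h2 with h3 | h3
    · left; linarith
    · right; linarith
  rcases h1 with h1 | h1
  · obtain ⟨η, k, hk, e⟩ := PosPar.exists_conj_T_of_trace h h1
    exact ⟨η, k, hk, Or.inl e⟩
  · obtain ⟨η, k, hk, e⟩ := PosPar.exists_conj_T_of_trace h.neg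
      (by rw [PosPar.neg_apply, PosPar.neg_apply]; linarith)
    exact ⟨η, k, hk, Or.inr (by rw [← e, neg_neg])⟩

theorem IsPosPar.pow {g : SL(2, ℤ)} (h : IsPosPar g) {k : ℕ} (hk : 0 < k) : IsPosPar (g ^ k) := by
  obtain ⟨η, j, hj, e⟩ := h.exists_conj_T
  have h1 : (η⁻¹ * T ^ j * η) ^ k = η⁻¹ * T ^ (j * k) * η⁻¹⁻¹ := by
    have := conj_pow (a := η⁻¹) (b := T ^ j) (i := k)
    rw [inv_inv] at this
    rw [this, ← pow_mul, inv_inv]
  have h2 : IsPosPar ((η⁻¹ * T ^ j * η) ^ k) := by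
    rw [h1]
    exact (isPosPar_T_pow (Nat.mul_pos hj hk)).conj η⁻¹
  rcases e with e | e
  · rw [e]
    exact h2
  · rw [e, neg_pow]
    rcases neg_one_pow_eq_or (SL(2, ℤ)) k with h3 | h3
    · rw [h3, one_mul]
      exact h2
    · rw [h3, neg_one_mul]
      exact h2.neg

/-- an element conjugating `± T ^ k` to `T ^ k'` (`k, k' > 0`) is `± T ^ j`, and `k = k'`. -/
theorem eq_T_zpow_of_conj {η : SL(2, ℤ)} {k k' : ℕ} (hk : 0 < k) (hk' : 0 < k')
    (e : η * T ^ k = T ^ k' * η ∨ η * T ^ k = -(T ^ k' * η)) :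
    k = k' ∧ ∃ j : ℤ, η = T ^ j ∨ η = -(T ^ j) := by
  obtain ⟨t00, t01, t10, t11⟩ := PosPar.T_pow_apply k
  obtain ⟨s00, s01, s10, s11⟩ := PosPar.T_pow_apply k'
  have hdet := PosPar.det_eq η
  have hkZ : (0 : ℤ) < k := by exact_mod_cast hk
  have hkZ' : (0 : ℤ) < k' := by exact_mod_cast hk'
  rcases e with e | e
  · have e00 := congrArg (fun u : SL(2, ℤ) => u 0 0) e
    have e01 := congrArg (fun u : SL(2, ℤ) => u 0 1) e
    simp only [PosPar.mul_apply, t00, t01, t10, t11, s00, s01] at e00 e01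
    have hc : η 1 0 = 0 := by
      have : (k' : ℤ) * η 1 0 = 0 := by linarith
      exact (mul_eq_zero.1 this).resolve_left hkZ'.ne'
    rw [hc, mul_zero, sub_zero] at hdet
    have ha : (η 0 0 = 1 ∧ η 1 1 = 1) ∨ (η 0 0 = -1 ∧ η 1 1 = -1) := by
      rcases Int.isUnit_iff.1 (IsUnit.of_mul_eq_one _ hdet) with h1 | h1
      · left
        rw [h1, one_mul] at hdet
        exact ⟨h1, hdet⟩
      · right
        rw [h1] at hdet
        exact ⟨h1, by linarith⟩
    rcases ha with ⟨ha, hd⟩ | ⟨ha, hd⟩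
    · rw [ha, hd] at e01
      refine ⟨by have : (k : ℤ) = k' := by linarith
                 exact_mod_cast this, η 0 1, Or.inl ?_⟩
      obtain ⟨u00, u01, u10, u11⟩ := PosPar.T_zpow_apply (η 0 1)
      exact PosPar.ext (by rw [ha, u00]) (by rw [u01]) (by rw [hc, u10]) (by rw [hd, u11])
    · rw [ha, hd] at e01
      refine ⟨by have : (k : ℤ) = k' := by linarith
                 exact_mod_cast this, - η 0 1, Or.inr ?_⟩
      obtain ⟨u00, u01, u10, u11⟩ := PosPar.T_zpow_apply (- η 0 1)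
      exact PosPar.ext (by rw [PosPar.neg_apply, ha, u00]) (by rw [PosPar.neg_apply, u01, neg_neg])
        (by rw [PosPar.neg_apply, hc, u10, neg_zero]) (by rw [PosPar.neg_apply, hd, u11])
  · exfalso
    have e00 := congrArg (fun u : SL(2, ℤ) => u 0 0) e
    have e10 := congrArg (fun u : SL(2, ℤ) => u 1 0) e
    simp only [PosPar.neg_apply, PosPar.mul_apply, t00, t10, s00, s01, s10, s11] at e00 e10
    have hc : η 1 0 = 0 := by linarith
    rw [hc] at e00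
    have ha : η 0 0 = 0 := by linarith
    rw [ha, hc] at hdet
    simp at hdet

end Fermat.Agent.S41.Kappa
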